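import Mathlib
import Fermat.Agent.S23.IntSeries

set_option autoImplicit false

/-!
# The operator `θ = q d/dq` on power series and the integer q-series `E2Z, E4Z, E6Z, DeltaZ`

Part of the Swinnerton-Dyer package (WP-SD of P-S16).  The Ramanujan identities over `ℤ` are
packaged as the proposition `RamanujanZ`; they are proved (analytically) in `Ramanujan.lean`.
-/

namespace Fermat.Agent.S16.SD

open PowerSeries
open Fermat.Agent.S23.IntSeries

noncomputable section

section Theta

variable {A : Type*} [CommRing A]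

/-- The operator `θ = q d/dq` on power series. -/
def theta (f : A⟦X⟧) : A⟦X⟧ := X * d⁄dX A f

theorem coeff_theta (f : A⟦X⟧) (n : ℕ) : coeff n (theta f) = (n : A) * coeff n f := by
  rw [theta]
  cases n with
  | zero => simp
  | succ n =>
    rw [coeff_succ_X_mul, coeff_derivative]
    push_cast
    ring

theorem theta_add (f g : A⟦X⟧) : theta (f + g) = theta f + theta g := by
  simp [theta, mul_add]

theorem theta_sub (f g : A⟦X⟧) : theta (f - g) = theta f - theta g := by
  simp [theta, mul_sub]

theorem theta_mul (f g : A⟦X⟧) : theta (f * g) = f * theta g + g * theta f := by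
  simp only [theta, Derivation.leibniz, smul_eq_mul]
  ring

theorem theta_C (a : A) : theta (C a : A⟦X⟧) = 0 := by
  simp [theta]

theorem theta_one : theta (1 : A⟦X⟧) = 0 := by
  rw [← map_one (C (R := A)), theta_C]

theorem theta_zero : theta (0 : A⟦X⟧) = 0 := by
  simp [theta]

theorem theta_C_mul (a : A) (f : A⟦X⟧) : theta (C a * f) = C a * theta f := by
  rw [theta_mul, theta_C, mul_zero, add_zero]

theorem theta_pow (f : A⟦X⟧) (n : ℕ) :
    theta (f ^ n) = (n : A⟦X⟧) * f ^ (n - 1) * theta f := by
  induction n with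
  | zero => simp [theta_one]
  | succ n ih =>
    rw [pow_succ, theta_mul, ih]
    cases n with
    | zero => simp
    | succ m =>
      simp only [Nat.add_sub_cancel, Nat.cast_add, Nat.cast_one]
      ring

theorem constantCoeff_theta (f : A⟦X⟧) : constantCoeff (theta f) = 0 := by
  rw [← coeff_zero_eq_constantCoeff_apply, coeff_theta]
  simp

theorem map_theta {B : Type*} [CommRing B] (φ : A →+* B) (f : A⟦X⟧) :
    PowerSeries.map φ (theta f) = theta (PowerSeries.map φ f) := by
  ext n
  simp [coeff_theta]

end Theta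

/-- The integer q-expansion `1 - 24 ∑ σ_1(n) q^n` of `E₂`. -/
def E2Z : PowerSeries ℤ := 1 - 24 * sigmaSeries 1

theorem constantCoeff_E2Z : constantCoeff E2Z = 1 := by
  simp [E2Z, constantCoeff_sigmaSeries]

/-- **Ramanujan's identities** for the integer q-series `E2Z`, `E4Z`, `E6Z`. -/
structure RamanujanZ : Prop where
  r4 : 3 * theta E4Z = E2Z * E4Z - E6Z
  r6 : 2 * theta E6Z = E2Z * E6Z - E4Z ^ 2
  r2 : 12 * theta E2Z = E2Z ^ 2 - E4Z

section Reduce

variable (A : Type*) [CommRing A]

/-- The q-series `P = E₂` with coefficients in `A`. -/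
def Pq : A⟦X⟧ := PowerSeries.map (Int.castRingHom A) E2Z
/-- The q-series `Q = E₄` with coefficients in `A`. -/
def Qq : A⟦X⟧ := PowerSeries.map (Int.castRingHom A) E4Z
/-- The q-series `R = E₆` with coefficients in `A`. -/
def Rq : A⟦X⟧ := PowerSeries.map (Int.castRingHom A) E6Z
/-- The q-series `Δ` with coefficients in `A`. -/
def Dq : A⟦X⟧ := PowerSeries.map (Int.castRingHom A) DeltaZ

theorem constantCoeff_Pq : constantCoeff (Pq A) = 1 := by
  rw [Pq, ← coeff_zero_eq_constantCoeff_apply, coeff_map, coeff_zero_eq_constantCoeff_apply,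
    constantCoeff_E2Z, map_one]

theorem constantCoeff_Qq : constantCoeff (Qq A) = 1 := by
  rw [Qq, ← coeff_zero_eq_constantCoeff_apply, coeff_map, coeff_zero_eq_constantCoeff_apply,
    constantCoeff_E4Z, map_one]

theorem constantCoeff_Rq : constantCoeff (Rq A) = 1 := by
  rw [Rq, ← coeff_zero_eq_constantCoeff_apply, coeff_map, coeff_zero_eq_constantCoeff_apply,
    constantCoeff_E6Z, map_one]

theorem constantCoeff_Dq : constantCoeff (Dq A) = 0 := by
  rw [Dq, ← coeff_zero_eq_constantCoeff_apply, coeff_map, coeff_zero_DeltaZ, map_zero]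

theorem coeff_one_Dq : coeff 1 (Dq A) = 1 := by
  rw [Dq, coeff_map, coeff_one_DeltaZ, map_one]

theorem Dq_ne_zero [Nontrivial A] : Dq A ≠ 0 := by
  intro h
  have := coeff_one_Dq A
  rw [h] at this
  simp at this

theorem Qq_cube_sub_Rq_sq : Qq A ^ 3 - Rq A ^ 2 = 1728 * Dq A := by
  have h := congrArg (PowerSeries.map (Int.castRingHom A)) E4Z_cube_sub_E6Z_sq
  simp only [map_sub, map_pow, map_mul] at h
  rw [Qq, Rq, Dq, h]
  congr 1
  exact map_ofNat _ 1728

variable {A}

theorem theta_Qq (h : RamanujanZ) : 3 * theta (Qq A) = Pq A * Qq A - Rq A := by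
  have := congrArg (PowerSeries.map (Int.castRingHom A)) h.r4
  simp only [map_sub, map_mul, map_theta] at this
  rw [Pq, Qq, Rq, ← this]
  congr 1
  exact (map_ofNat _ 3).symm

theorem theta_Rq (h : RamanujanZ) : 2 * theta (Rq A) = Pq A * Rq A - Qq A ^ 2 := by
  have := congrArg (PowerSeries.map (Int.castRingHom A)) h.r6
  simp only [map_sub, map_mul, map_pow, map_theta] at this
  rw [Pq, Qq, Rq, ← this]
  congr 1
  exact (map_ofNat _ 2).symm

theorem theta_Pq (h : RamanujanZ) : 12 * theta (Pq A) = Pq A ^ 2 - Qq A := by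
  have := congrArg (PowerSeries.map (Int.castRingHom A)) h.r2
  simp only [map_sub, map_mul, map_pow, map_theta] at this
  rw [Pq, Qq, ← this]
  congr 1
  exact (map_ofNat _ 12).symm

end Reduce

end

end Fermat.Agent.S16.SD
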