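import Mathlib
import Fermat.Agent.S16.SD.QSeries
import Fermat.Agent.S24.JFun.Ramanujan
import Fermat.Agent.S24.QExp
import Fermat.Agent.Gateway.GoodRed.Forms.QDeriv

/-!
# Ramanujan's identities for the integer q-series `E2Z`, `E4Z`, `E6Z`

WP-SD-RAM of P-S16 (helper15).  We prove `ramanujanZ : RamanujanZ`.  The identities for `E₄` and
`E₆` are transported from `S24/JFun/Ramanujan`; the identity `D E₂ = (E₂² - E₄)/12` (`D_E2`) is
proved here: the function `D E₂ - E₂²/12 = serreDerivative 1 E₂` is slash invariant of weight `4`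
(`gE2_slash`, a direct computation from `E2_slash_action` and `normalizedDerivOfComplex_SL_slash`),
hence a modular form of weight `4` and level one, hence a multiple of `E₄`.
-/

set_option autoImplicit false

open UpperHalfPlane hiding I
open Complex Filter Function Topology ModularForm EisensteinSeries
open SlashInvariantForm SlashInvariantFormClass ModularFormClass
open scoped Real Manifold MatrixGroups

namespace Fermat.Agent.S16.SD

open Derivative
open Fermat.Agent.S24.QExp Fermat.Agent.S24.JFun Fermat.Agent.S23.IntSeries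
open Fermat.Agent.Gateway.GoodRed.Forms

theorem hasSum_E2_qH (τ : ℍ) :
    HasSum (fun m : ℕ => (if m = 0 then 1 else -24 * (ArithmeticFunction.sigma 1 m : ℂ) : ℂ) •
      qH τ ^ m) (E2 τ) := by
  simpa only [qH, Function.Periodic.qParam, ofReal_one, div_one] using
    hasSum_qExpansion_E2 (z := τ)

theorem isPer_E2 : IsPer 1 E2 := by
  intro z
  have h1 := hasSum_E2_qH ((1 : ℝ) +ᵥ z)
  rw [qH_isPer z] at h1
  exact h1.unique (hasSum_E2_qH z)

/-! ### The derivative of the correction term `D2 γ` -/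

theorem D2_eq (γ : SL(2, ℤ)) :
    D2 γ = fun z : ℍ => (2 * π * I * γ 1 0) * (denom (γ : GL (Fin 2) ℝ) z)⁻¹ := by
  funext z
  simp [D2, div_eq_mul_inv]

theorem mdiff_D2 (γ : SL(2, ℤ)) : MDiff (D2 γ) := by
  rw [D2_eq]
  exact mdifferentiable_const.mul (mdifferentiable_inv_denom _)

theorem D_D2 (γ : SL(2, ℤ)) (z : ℍ) :
    D (D2 γ) z = -((γ 1 0 : ℂ) ^ 2) / (denom (γ : GL (Fin 2) ℝ) z) ^ 2 := by
  have heq : (D2 γ ∘ ofComplex) =ᶠ[𝓝 (z : ℂ)]
      fun w => (2 * π * I * γ 1 0) * (denom (γ : GL (Fin 2) ℝ) w) ^ (-1 : ℤ) := by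
    filter_upwards [isOpen_upperHalfPlaneSet.mem_nhds z.im_pos] with w hw
    simp [D2, ofComplex_apply_of_im_pos hw, div_eq_mul_inv]
  have h1 := ((hasDerivAt_denom_zpow (γ : GL (Fin 2) ℝ) (-1) z).const_mul
    (2 * π * I * γ 1 0 : ℂ)).congr_of_eventuallyEq heq
  have hz := denom_ne_zero (γ : GL (Fin 2) ℝ) z
  have hpi : (2 * (π : ℂ) * I) ≠ 0 := Complex.two_pi_I_ne_zero
  rw [normalizedDerivOfComplex, h1.deriv]
  have e : (-1 - 1 : ℤ) = -2 := by norm_num
  rw [e, zpow_neg, zpow_ofNat]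
  simp
  field_simp
  rw [Complex.I_sq]
  ring

/-! ### `D E₂ - E₂²/12` is a modular form of weight 4 -/

/-- The function `D E₂ - E₂² / 12`. -/
noncomputable def gE2 : ℍ → ℂ := serreDerivative 1 E2

theorem gE2_apply (z : ℍ) : gE2 z = D E2 z - 12⁻¹ * E2 z * E2 z := by
  simp [gE2]

theorem one_div_two_zeta_two :
    1 / (2 * riemannZeta 2) = -12 / (2 * (π : ℂ) * I) ^ 2 := by
  have hpi : (π : ℂ) ≠ 0 := by exact_mod_cast Real.pi_ne_zero
  have h : (2 * (π : ℂ) * I) ^ 2 = -4 * (π : ℂ) ^ 2 := by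
    rw [mul_pow, mul_pow, I_sq]; ring
  rw [riemannZeta_two, h]
  field_simp
  ring

theorem gE2_slash (γ : SL(2, ℤ)) : gE2 ∣[(4 : ℤ)] γ = gE2 := by
  ext z
  have hz := denom_ne_zero (γ : GL (Fin 2) ℝ) z
  have hLHS : (gE2 ∣[(4 : ℤ)] γ) z =
      (D E2 ∣[(2 : ℤ) + 2] γ) z - 12⁻¹ * ((E2 ∣[(2 : ℤ)] γ) z * (E2 ∣[(2 : ℤ)] γ) z) := by
    have hmul := congrFun (ModularForm.mul_slash_SL2 2 2 γ E2 E2) z
    have h4 : ((2 : ℤ) + 2) = 4 := by norm_num
    rw [h4] at hmul ⊢
    simp only [Pi.mul_apply] at hmul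
    rw [← hmul]
    simp only [ModularForm.SL_slash_apply, Pi.mul_apply, gE2_apply]
    ring
  have hDz : (D (E2 ∣[(2 : ℤ)] γ)) z = (D E2 ∣[(2 : ℤ) + 2] γ) z -
      (2 * (2 * π * I)⁻¹ * (γ 1 0 / denom (γ : GL (Fin 2) ℝ) z) * (E2 ∣[(2 : ℤ)] γ) z) := by
    simp [normalizedDerivOfComplex_SL_slash E2_mdifferentiable]
  have hE2 : (E2 ∣[(2 : ℤ)] γ) = E2 - (1 / (2 * riemannZeta 2)) • D2 γ := E2_slash_action γ
  have hE2z : (E2 ∣[(2 : ℤ)] γ) z = E2 z - 1 / (2 * riemannZeta 2) * D2 γ z := by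
    rw [hE2]; simp
  have hD : D (E2 ∣[(2 : ℤ)] γ) z = D E2 z - 1 / (2 * riemannZeta 2) * D (D2 γ) z := by
    rw [hE2, normalizedDerivOfComplex_sub _ _ E2_mdifferentiable ((mdiff_D2 γ).const_smul _),
      normalizedDerivOfComplex_smul _ _ (mdiff_D2 γ)]
    simp
  rw [hLHS, gE2_apply]
  have hD2 : D2 γ z = 2 * π * I * γ 1 0 / denom (γ : GL (Fin 2) ℝ) z := rfl
  rw [D_D2] at hD
  rw [hD] at hDz
  rw [hE2z, hD2] at hDz ⊢
  rw [one_div_two_zeta_two] at hDz ⊢
  have hu0 : (2 * (π : ℂ) * I) ≠ 0 := Complex.two_pi_I_ne_zero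
  generalize (2 * (π : ℂ) * I) = u at hDz hu0 ⊢
  generalize denom (γ : GL (Fin 2) ℝ) z = d at hDz hz ⊢
  generalize ((γ 1 0 : ℤ) : ℂ) = c at hDz ⊢
  generalize (D E2 ∣[(2 : ℤ) + 2] γ) z = Y at hDz ⊢
  have key : Y = D E2 z - -12 / u ^ 2 * (-(c ^ 2) / d ^ 2) +
      (2 * u⁻¹ * (c / d) * (E2 z - -12 / u ^ 2 * (u * c / d))) := by
    linear_combination -hDz
  rw [key]
  field_simp
  ring

theorem periodic_E2 : Periodic (E2 ∘ ofComplex) 1 := by
  have := isPer_E2.periodic_comp_ofComplex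
  simpa using this

theorem D_E2_isZeroAtImInfty : IsZeroAtImInfty (D E2) :=
  normalizedDeriv_isZeroAtImInfty periodic_E2 E2_mdifferentiable isBoundedAtImInfty_E2

theorem gE2_isBoundedAtImInfty : IsBoundedAtImInfty gE2 := by
  have h1 : IsBoundedAtImInfty (D E2) := D_E2_isZeroAtImInfty.boundedAtFilter
  have h2 : IsBoundedAtImInfty (fun z : ℍ => (1 : ℂ) * 12⁻¹ * E2 z * E2 z) := by
    have h3 : IsBoundedAtImInfty (fun _ : ℍ => (1 : ℂ) * 12⁻¹) := const_boundedAtFilter _ _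
    exact (h3.mul isBoundedAtImInfty_E2).mul isBoundedAtImInfty_E2
  exact h1.sub h2

/-- `D E₂ - E₂²/12` as a modular form of weight `4`. -/
noncomputable def gE2MF : ModularForm 𝒮ℒ 4 where
  toFun := gE2
  slash_action_eq' := fun _ ⟨γ, hγ⟩ => hγ ▸ gE2_slash γ
  holo' := serreDerivative_mdifferentiable 1 E2_mdifferentiable
  bdd_at_cusps' {c} hc := by
    rw [Subgroup.IsArithmetic.isCusp_iff_isCusp_SL2Z] at hc
    rw [OnePoint.isBoundedAt_iff_forall_SL2Z hc]
    intro γ _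
    rw [gE2_slash]
    exact gE2_isBoundedAtImInfty

theorem gE2MF_apply (z : ℍ) : gE2MF z = gE2 z := rfl

theorem gE2_tendsto : Tendsto gE2 atImInfty (𝓝 (-(12⁻¹ : ℂ))) := by
  have h1 : Tendsto (D E2) atImInfty (𝓝 0) := D_E2_isZeroAtImInfty
  have h2 : Tendsto (fun z : ℍ => (12⁻¹ : ℂ) * E2 z * E2 z) atImInfty (𝓝 (12⁻¹ * 1 * 1)) :=
    (tendsto_const_nhds.mul E2_tendsto_atImInfty).mul E2_tendsto_atImInfty
  have h3 := h1.sub h2
  simp only [zero_sub, mul_one] at h3
  exact h3.congr fun z => (gE2_apply z).symm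

/-- **Ramanujan's identity** `D E₂ = (E₂² - E₄) / 12`. -/
theorem D_E2 (z : ℍ) : D E2 z = (E2 z ^ 2 - E₄ z) / 12 := by
  obtain ⟨c, hc⟩ : ∃ c : ℂ, c • E₄ = gE2MF :=
    (finrank_eq_one_iff_of_nonzero' E₄ (E_ne_zero _ ⟨2, rfl⟩)).mp
      (Module.rank_eq_one_iff_finrank_eq_one.mp levelOne_weight_four_rank_one) _
  have hfun : ∀ w : ℍ, c * E₄ w = gE2 w := fun w => by
    have := congrArg (fun F : ModularForm 𝒮ℒ 4 => F w) hc
    rw [← gE2MF_apply]
    simpa using this
  have hlim1 : Tendsto (fun w : ℍ => c * E₄ w) atImInfty (𝓝 (c * 1)) :=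
    tendsto_const_nhds.mul E₄_tendsto_atImInfty
  have hlim1' : Tendsto gE2 atImInfty (𝓝 (c * 1)) := hlim1.congr hfun
  have hc' : c * 1 = -(12⁻¹ : ℂ) := tendsto_nhds_unique hlim1' gE2_tendsto
  rw [mul_one] at hc'
  have h := hfun z
  rw [gE2_apply, hc'] at h
  linear_combination -h

/-! ### Transfer to power series -/

theorem nice_E2 : Nice E2 := ⟨E2_mdifferentiable, isPer_E2, isBoundedAtImInfty_E2⟩

theorem qExpansion_E2 : qExpansion 1 E2 = E2Z.map (Int.castRingHom ℂ) := by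
  rw [nice_E2.qExpansion_unique hasSum_E2_qH]
  ext n
  rw [PowerSeries.coeff_mk, PowerSeries.coeff_map, E2Z]
  rcases n with _ | n
  · simp [constantCoeff_sigmaSeries]
  · have h24 : (24 : PowerSeries ℤ) = PowerSeries.C (24 : ℤ) := (map_ofNat _ 24).symm
    rw [map_sub, PowerSeries.coeff_one, if_neg (Nat.succ_ne_zero n), h24, PowerSeries.coeff_C_mul,
      sigmaSeries, PowerSeries.coeff_mk, if_neg (Nat.succ_ne_zero n)]
    simp

theorem qExpansion_D_eq_theta {f : ℍ → ℂ} (hf : Nice f) :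
    qExpansion 1 (D f) = theta (qExpansion 1 f) := by
  ext n
  rw [qExpansion_D_coeff hf, coeff_theta]

theorem map_injective_int_complex :
    Function.Injective (PowerSeries.map (Int.castRingHom ℂ)) := by
  intro f g h
  ext n
  have := congrArg (PowerSeries.coeff n) h
  simpa using this

theorem natCast_mul_eq (n : ℕ) (f : PowerSeries ℤ) :
    PowerSeries.map (Int.castRingHom ℂ) ((n : PowerSeries ℤ) * f) =
      PowerSeries.C (n : ℂ) * PowerSeries.map (Int.castRingHom ℂ) f := by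
  rw [map_mul, map_natCast, map_natCast]

/-- **Ramanujan's identities** over `ℤ`. -/
theorem ramanujanZ : RamanujanZ := by
  have n2 := nice_E2
  have n4 : Nice (E₄ : ℍ → ℂ) := nice_of_modularForm E₄
  have n6 : Nice (E₆ : ℍ → ℂ) := nice_of_modularForm E₆
  refine ⟨?_, ?_, ?_⟩
  · -- `3 D E₄ + E₆ = E₂ E₄`
    have hfun : (fun _ : ℍ => (3 : ℂ)) * D (E₄ : ℍ → ℂ) + (E₆ : ℍ → ℂ) = E2 * (E₄ : ℍ → ℂ) := by
      funext z
      simp only [Pi.add_apply, Pi.mul_apply, D_E₄ z]
      ring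
    have hq := congrArg (qExpansion 1) hfun
    rw [(((nice_const 3).mul (nice_D n4))).qExpansion_add n6, (nice_const 3).qExpansion_mul
      (nice_D n4), n2.qExpansion_mul n4, qExpansion_const, qExpansion_D_eq_theta n4,
      qExpansion_E2, qExpansion_E4, qExpansion_E6, ← map_theta] at hq
    have h3 : (3 : PowerSeries ℤ) = ((3 : ℕ) : PowerSeries ℤ) := by norm_num
    have : PowerSeries.map (Int.castRingHom ℂ) (3 * theta E4Z + E6Z) =
        PowerSeries.map (Int.castRingHom ℂ) (E2Z * E4Z) := by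
      rw [map_add, map_mul _ E2Z, h3, natCast_mul_eq]
      simpa using hq
    have := map_injective_int_complex this
    linear_combination this
  · -- `2 D E₆ + E₄² = E₂ E₆`
    have hfun : (fun _ : ℍ => (2 : ℂ)) * D (E₆ : ℍ → ℂ) + (E₄ : ℍ → ℂ) ^ 2 =
        E2 * (E₆ : ℍ → ℂ) := by
      funext z
      simp only [Pi.add_apply, Pi.mul_apply, Pi.pow_apply, D_E₆ z]
      ring
    have hq := congrArg (qExpansion 1) hfun
    rw [(((nice_const 2).mul (nice_D n6))).qExpansion_add (n4.pow 2), (nice_const 2).qExpansion_mul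
      (nice_D n6), n2.qExpansion_mul n6, n4.qExpansion_pow, qExpansion_const,
      qExpansion_D_eq_theta n6, qExpansion_E2, qExpansion_E4, qExpansion_E6, ← map_theta] at hq
    have h2 : (2 : PowerSeries ℤ) = ((2 : ℕ) : PowerSeries ℤ) := by norm_num
    have : PowerSeries.map (Int.castRingHom ℂ) (2 * theta E6Z + E4Z ^ 2) =
        PowerSeries.map (Int.castRingHom ℂ) (E2Z * E6Z) := by
      rw [map_add, map_mul _ E2Z, map_pow, h2, natCast_mul_eq]
      simpa using hq
    have := map_injective_int_complex this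
    linear_combination this
  · -- `12 D E₂ + E₄ = E₂²`
    have hfun : (fun _ : ℍ => (12 : ℂ)) * D E2 + (E₄ : ℍ → ℂ) = E2 ^ 2 := by
      funext z
      simp only [Pi.add_apply, Pi.mul_apply, Pi.pow_apply, D_E2 z]
      ring
    have hq := congrArg (qExpansion 1) hfun
    rw [(((nice_const 12).mul (nice_D n2))).qExpansion_add n4, (nice_const 12).qExpansion_mul
      (nice_D n2), n2.qExpansion_pow, qExpansion_const,
      qExpansion_D_eq_theta n2, qExpansion_E2, qExpansion_E4, ← map_theta] at hq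
    have h12 : (12 : PowerSeries ℤ) = ((12 : ℕ) : PowerSeries ℤ) := by norm_num
    have : PowerSeries.map (Int.castRingHom ℂ) (12 * theta E2Z + E4Z) =
        PowerSeries.map (Int.castRingHom ℂ) (E2Z ^ 2) := by
      rw [map_add, map_pow, h12, natCast_mul_eq]
      simpa using hq
    have := map_injective_int_complex this
    linear_combination this

end Fermat.Agent.S16.SD
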