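/-
P-S16, block SD, sub-package SD-c (helper73): von Staudt at the single prime `l`:
`l * B_{l-1}` is an `l`-adic unit congruent to `-1`, hence the coefficient
`2 (l-1) / B_{l-1}` of the normalised Eisenstein series `E_{l-1}` is `l` times an
`l`-integral rational number.  Mathlib only.
-/
import Mathlib

set_option autoImplicit false

namespace Fermat.Agent.S16.SD

open Finset

/-- `l`-integrality of a rational number, phrased with the valuation. -/
theorem padicValuation_le_one_of_prime_ne {l q : ℕ} [Fact l.Prime] (hq : q.Prime) (hql : q ≠ l) :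
    Rat.padicValuation l ((1 : ℚ) / q) ≤ 1 := by
  rw [Rat.padicValuation_le_one_iff]
  have hden : ((1 : ℚ) / q).den = q := by simp [hq.ne_zero]
  rw [hden]
  intro h
  exact hql ((Nat.prime_dvd_prime_iff_eq Fact.out hq).mp h).symm

/-- von Staudt at the prime `l` (odd): `l * B_{l-1} = -1 + l * r` with `r` `l`-integral. -/
theorem exists_mul_bernoulli_eq (l : ℕ) [Fact l.Prime] (hl : 3 ≤ l) :
    ∃ r : ℚ, Rat.padicValuation l r ≤ 1 ∧ (l : ℚ) * bernoulli (l - 1) = -1 + l * r := by
  have hlp : l.Prime := Fact.out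
  have hodd : Odd l := hlp.odd_of_ne_two (by omega)
  obtain ⟨k, hk⟩ := hodd
  have h2k : 2 * k = l - 1 := by omega
  obtain ⟨n, hn⟩ := Bernoulli.vonStaudt_clausen k
  rw [h2k] at hn
  have hrange : l - 1 + 2 = l + 1 := by omega
  rw [hrange] at hn
  set S : Finset ℕ := (range (l + 1)).filter (fun p => p.Prime ∧ (p - 1) ∣ (l - 1)) with hS
  have hlS : l ∈ S := by
    rw [hS, mem_filter]
    exact ⟨mem_range.mpr (by omega), hlp, dvd_rfl⟩
  have hsplit : ∑ p ∈ S, (1 : ℚ) / p = 1 / l + ∑ p ∈ S.erase l, (1 : ℚ) / p :=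
    (Finset.add_sum_erase S (fun p => (1 : ℚ) / p) hlS).symm
  have hl0 : (l : ℚ) ≠ 0 := by exact_mod_cast hlp.ne_zero
  refine ⟨(n : ℚ) - ∑ p ∈ S.erase l, (1 : ℚ) / p, ?_, ?_⟩
  · refine (Rat.padicValuation l).map_sub_le ?_ ?_
    · exact_mod_cast Int.padicValuation_le_one l n
    · refine (Rat.padicValuation l).map_sum_le fun q hq => ?_
      rw [mem_erase, hS, mem_filter] at hq
      exact padicValuation_le_one_of_prime_ne hq.2.2.1 hq.1
  · have hB : bernoulli (l - 1) = (n : ℚ) - (1 / l + ∑ p ∈ S.erase l, (1 : ℚ) / p) := by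
      rw [← hsplit]; linarith
    rw [hB]
    field_simp
    ring

/-- `l * B_{l-1}` is an `l`-adic unit. -/
theorem padicValuation_mul_bernoulli (l : ℕ) [Fact l.Prime] (hl : 3 ≤ l) :
    Rat.padicValuation l ((l : ℚ) * bernoulli (l - 1)) = 1 := by
  obtain ⟨r, hr, hx⟩ := exists_mul_bernoulli_eq l hl
  rw [hx]
  have h1 : Rat.padicValuation l ((l : ℚ) * r) < 1 := by
    rw [map_mul, Rat.padicValuation_self]
    calc WithZero.exp (-1 : ℤ) * Rat.padicValuation l r
        ≤ WithZero.exp (-1 : ℤ) * 1 := by gcongr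
      _ < 1 := by
        rw [mul_one, ← WithZero.exp_zero]
        exact WithZero.exp_lt_exp.mpr (by norm_num)
  have h2 : Rat.padicValuation l (-1 : ℚ) = 1 := by
    rw [Valuation.map_neg, map_one]
  rw [Valuation.map_add_eq_of_lt_left]
  · exact h2
  · rw [h2]; exact h1

theorem bernoulli_pred_ne_zero (l : ℕ) [Fact l.Prime] (hl : 3 ≤ l) : bernoulli (l - 1) ≠ 0 := by
  intro h
  have := padicValuation_mul_bernoulli l hl
  rw [h, mul_zero, map_zero] at this
  exact zero_ne_one this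

/-- **SD-c**: the non-constant coefficients of `E_{l-1}` are divisible by `l` in `ℤ_(l)`. -/
theorem eisenstein_coeff_dvd (l : ℕ) [Fact l.Prime] (hl : 5 ≤ l) :
    ∃ u : ℚ, ¬ l ∣ u.den ∧ (2 * ((l : ℚ) - 1) / bernoulli (l - 1)) = l * u := by
  have hlp : l.Prime := Fact.out
  have hl0 : (l : ℚ) ≠ 0 := by exact_mod_cast hlp.ne_zero
  have hB := bernoulli_pred_ne_zero l (by omega)
  have hv := padicValuation_mul_bernoulli l (by omega)
  refine ⟨2 * ((l : ℚ) - 1) / ((l : ℚ) * bernoulli (l - 1)), ?_, ?_⟩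
  · rw [← Rat.padicValuation_le_one_iff, map_div₀, hv, div_one]
    have : (2 * ((l : ℚ) - 1)) = ((2 * ((l : ℤ) - 1) : ℤ) : ℚ) := by push_cast; ring
    rw [this]
    exact_mod_cast Int.padicValuation_le_one l _
  · field_simp

/-- Variant: the same statement with the `l`-integrality phrased via the valuation and with the
congruence `l * B_{l-1} ≡ -1`. -/
theorem mul_bernoulli_add_one (l : ℕ) [Fact l.Prime] (hl : 3 ≤ l) :
    ∃ r : ℚ, ¬ l ∣ r.den ∧ (l : ℚ) * bernoulli (l - 1) + 1 = l * r := by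
  obtain ⟨r, hr, hx⟩ := exists_mul_bernoulli_eq l hl
  exact ⟨r, Rat.padicValuation_le_one_iff.mp hr, by rw [hx]; ring⟩

end Fermat.Agent.S16.SD
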