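import Mathlib

set_option autoImplicit false

/-!
# Isobaric polynomials in two variables of weights 4 and 6

Part of the Swinnerton-Dyer package (WP-SD of P-S16).  Pure algebra over a commutative ring `K`:
the polynomial ring `K[Q, R] = MvPolynomial (Fin 2) K` with `Q = X 0` of weight `4` and `R = X 1`
of weight `6`, the grading homomorphism `evT : K[Q,R] → K[Q,R][t]`, `Q ↦ Q t⁴`, `R ↦ R t⁶`
(whose coefficients are the isobaric components), top components, twists and the two derivations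
`eulerD` (`Q ↦ 4Q`, `R ↦ 6R`) and `ramD` (`Q ↦ -4R`, `R ↦ -6Q²`, the Ramanujan-Serre derivation).
-/

namespace Fermat.Agent.S16.SD

open MvPolynomial

noncomputable section

variable {K : Type*} [CommRing K]

/-- Weights of the two variables: `Q = X 0` has weight 4 and `R = X 1` has weight 6. -/
def wt : Fin 2 → ℕ := ![4, 6]

@[simp] theorem wt_zero : wt 0 = 4 := rfl
@[simp] theorem wt_one : wt 1 = 6 := rfl

/-- `Φ` is isobaric of weight `k`. -/
def IsIso (Φ : MvPolynomial (Fin 2) K) (k : ℕ) : Prop := IsWeightedHomogeneous wt Φ k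

/-- The grading homomorphism `Q ↦ Q t⁴`, `R ↦ R t⁶`. -/
def evT : MvPolynomial (Fin 2) K →ₐ[K] Polynomial (MvPolynomial (Fin 2) K) :=
  aeval (fun i => Polynomial.C (X i) * Polynomial.X ^ wt i)

@[simp] theorem evT_X (i : Fin 2) :
    evT (X i : MvPolynomial (Fin 2) K) = Polynomial.C (X i) * Polynomial.X ^ wt i := by
  simp [evT]

theorem evT_C (a : K) :
    evT (C a : MvPolynomial (Fin 2) K) = Polynomial.C (C a) := by
  simp [evT]

theorem evT_monomial (d : Fin 2 →₀ ℕ) (c : K) :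
    evT (monomial d c) = Polynomial.C (monomial d c) * Polynomial.X ^ (Finsupp.weight wt d) := by
  rw [monomial_eq, map_mul, evT_C, Finsupp.prod, map_prod]
  simp only [map_pow, evT_X, mul_pow]
  rw [Finset.prod_mul_distrib, Polynomial.C_mul, map_prod, mul_assoc]
  congr 1
  simp only [map_pow]
  congr 1
  rw [Finsupp.weight_apply, Finsupp.sum]
  simp only [← pow_mul, Finset.prod_pow_eq_pow_sum]
  congr 1
  apply Finset.sum_congr rfl
  intro i _
  simp [mul_comm]

/-- The coefficients of `evT Φ` are the isobaric components of `Φ`. -/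
theorem coeff_evT (Φ : MvPolynomial (Fin 2) K) (m : ℕ) :
    (evT Φ).coeff m = weightedHomogeneousComponent wt m Φ := by
  classical
  rw [weightedHomogeneousComponent_apply]
  conv_lhs => rw [← support_sum_monomial_coeff Φ]
  rw [map_sum, Polynomial.finsetSum_coeff, Finset.sum_filter]
  apply Finset.sum_congr rfl
  intro d _
  rw [evT_monomial, Polynomial.coeff_C_mul, Polynomial.coeff_X_pow]
  split_ifs with h1 h2 h2
  · simp
  · exact absurd h1.symm h2
  · exact absurd h2.symm h1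
  · simp

theorem isIso_coeff_evT (Φ : MvPolynomial (Fin 2) K) (m : ℕ) : IsIso ((evT Φ).coeff m) m := by
  rw [coeff_evT]
  exact weightedHomogeneousComponent_isWeightedHomogeneous m Φ

/-- Evaluating `evT Φ` at `t = 1` gives back `Φ`. -/
theorem eval_one_evT (Φ : MvPolynomial (Fin 2) K) : Polynomial.eval 1 (evT Φ) = Φ := by
  have h : ((Polynomial.evalRingHom (1 : MvPolynomial (Fin 2) K)).comp
      (evT : MvPolynomial (Fin 2) K →ₐ[K] _).toRingHom) = RingHom.id _ := by
    apply MvPolynomial.ringHom_ext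
    · intro a
      simp
    · intro i
      simp
  exact congrArg (fun f => f Φ) h

theorem evT_injective : Function.Injective (evT : MvPolynomial (Fin 2) K → _) := by
  intro a b hab
  rw [← eval_one_evT a, ← eval_one_evT b, hab]

theorem evT_eq_zero_iff {Φ : MvPolynomial (Fin 2) K} : evT Φ = 0 ↔ Φ = 0 := by
  rw [← map_zero (evT : MvPolynomial (Fin 2) K →ₐ[K] _)]
  exact evT_injective.eq_iff

/-- `Φ` is isobaric of weight `k` iff `evT Φ = Φ t^k`. -/
theorem isIso_iff_evT {Φ : MvPolynomial (Fin 2) K} {k : ℕ} :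
    IsIso Φ k ↔ evT Φ = Polynomial.C Φ * Polynomial.X ^ k := by
  classical
  constructor
  · intro h
    ext1 m
    rw [coeff_evT, Polynomial.coeff_C_mul, Polynomial.coeff_X_pow]
    by_cases hm : m = k
    · subst hm
      simp [h.weightedHomogeneousComponent_same]
    · simp [hm, h.weightedHomogeneousComponent_ne m hm]
  · intro h
    have := isIso_coeff_evT Φ k
    rwa [h, Polynomial.coeff_C_mul, Polynomial.coeff_X_pow, if_pos rfl, mul_one] at this

theorem IsIso.evT_eq {Φ : MvPolynomial (Fin 2) K} {k : ℕ} (h : IsIso Φ k) :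
    evT Φ = Polynomial.C Φ * Polynomial.X ^ k := isIso_iff_evT.1 h

theorem isIso_zero (k : ℕ) : IsIso (0 : MvPolynomial (Fin 2) K) k :=
  isWeightedHomogeneous_zero K wt k

theorem isIso_C (a : K) : IsIso (C a : MvPolynomial (Fin 2) K) 0 :=
  isWeightedHomogeneous_C wt a

theorem isIso_one : IsIso (1 : MvPolynomial (Fin 2) K) 0 :=
  isWeightedHomogeneous_one K wt

theorem isIso_X (i : Fin 2) : IsIso (X i : MvPolynomial (Fin 2) K) (wt i) :=
  isWeightedHomogeneous_X K wt i

theorem IsIso.add {Φ Ψ : MvPolynomial (Fin 2) K} {k : ℕ} (h1 : IsIso Φ k) (h2 : IsIso Ψ k) :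
    IsIso (Φ + Ψ) k := IsWeightedHomogeneous.add h1 h2

theorem IsIso.neg {Φ : MvPolynomial (Fin 2) K} {k : ℕ} (h1 : IsIso Φ k) :
    IsIso (-Φ) k := IsWeightedHomogeneous.neg h1

theorem IsIso.sub {Φ Ψ : MvPolynomial (Fin 2) K} {k : ℕ} (h1 : IsIso Φ k) (h2 : IsIso Ψ k) :
    IsIso (Φ - Ψ) k := IsWeightedHomogeneous.sub h1 h2

theorem IsIso.mul {Φ Ψ : MvPolynomial (Fin 2) K} {k m : ℕ} (h1 : IsIso Φ k) (h2 : IsIso Ψ m) :
    IsIso (Φ * Ψ) (k + m) := IsWeightedHomogeneous.mul h1 h2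

theorem IsIso.pow {Φ : MvPolynomial (Fin 2) K} {k : ℕ} (h1 : IsIso Φ k) (n : ℕ) :
    IsIso (Φ ^ n) (n * k) := by
  have := IsWeightedHomogeneous.pow h1 n
  rw [smul_eq_mul] at this
  exact this

theorem IsIso.C_mul {Φ : MvPolynomial (Fin 2) K} {k : ℕ} (h1 : IsIso Φ k) (a : K) :
    IsIso (C a * Φ) k := IsWeightedHomogeneous.C_mul h1 a

theorem IsIso.sum {ι : Type*} (s : Finset ι) (φ : ι → MvPolynomial (Fin 2) K) (k : ℕ)
    (h : ∀ i ∈ s, IsIso (φ i) k) : IsIso (∑ i ∈ s, φ i) k :=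
  IsWeightedHomogeneous.sum s φ k h

theorem IsIso.weight_cast {Φ : MvPolynomial (Fin 2) K} {k m : ℕ} (h1 : IsIso Φ k) (h : k = m) :
    IsIso Φ m := h ▸ h1

/-- A nonzero isobaric polynomial has a unique weight. -/
theorem IsIso.weight_unique {Φ : MvPolynomial (Fin 2) K} {k m : ℕ} (h0 : Φ ≠ 0)
    (h1 : IsIso Φ k) (h2 : IsIso Φ m) : k = m :=
  IsWeightedHomogeneous.inj_right h0 h1 h2

/-- `Φ` is the sum of its isobaric components. -/
theorem sum_coeff_evT (Φ : MvPolynomial (Fin 2) K) :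
    ∑ m ∈ Finset.range ((evT Φ).natDegree + 1), (evT Φ).coeff m = Φ := by
  conv_rhs => rw [← eval_one_evT Φ, Polynomial.eval_eq_sum_range]
  simp

/-! ### Weighted degree and top component -/

/-- The weighted degree. -/
def wdeg (Φ : MvPolynomial (Fin 2) K) : ℕ := (evT Φ).natDegree

/-- The top isobaric component. -/
def top (Φ : MvPolynomial (Fin 2) K) : MvPolynomial (Fin 2) K := (evT Φ).leadingCoeff

theorem isIso_top (Φ : MvPolynomial (Fin 2) K) : IsIso (top Φ) (wdeg Φ) :=
  isIso_coeff_evT Φ _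

theorem top_eq_zero_iff {Φ : MvPolynomial (Fin 2) K} : top Φ = 0 ↔ Φ = 0 := by
  rw [top, Polynomial.leadingCoeff_eq_zero, evT_eq_zero_iff]

theorem IsIso.top_eq {Φ : MvPolynomial (Fin 2) K} {k : ℕ} (h : IsIso Φ k) : top Φ = Φ := by
  by_cases h0 : Φ = 0
  · subst h0
    simp [top]
  · rw [top, h.evT_eq, Polynomial.leadingCoeff_mul_X_pow, Polynomial.leadingCoeff_C]

theorem IsIso.wdeg_eq {Φ : MvPolynomial (Fin 2) K} {k : ℕ} (h : IsIso Φ k) (h0 : Φ ≠ 0) :
    wdeg Φ = k := by
  rw [wdeg, h.evT_eq, Polynomial.natDegree_C_mul_X_pow k Φ h0]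

theorem wdeg_eq_zero_iff {Φ : MvPolynomial (Fin 2) K} : wdeg Φ = 0 ↔ ∃ a : K, Φ = C a := by
  constructor
  · intro h
    have h1 : IsIso Φ 0 := by
      have := sum_coeff_evT Φ
      rw [show (evT Φ).natDegree = 0 from h] at this
      simp only [zero_add, Finset.range_one, Finset.sum_singleton] at this
      rw [← this]
      exact isIso_coeff_evT Φ 0
    refine ⟨coeff 0 Φ, ?_⟩
    ext d
    by_cases hd : d = 0
    · subst hd
      simp
    · rw [coeff_C, if_neg (Ne.symm hd)]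
      by_contra hne
      have hw : Finsupp.weight wt d = 0 := h1 hne
      apply hd
      ext i
      have : d i • wt i = 0 := by
        rw [Finsupp.weight_apply, Finsupp.sum] at hw
        by_cases hi : i ∈ d.support
        · exact (Finset.sum_eq_zero_iff.1 hw) i hi
        · simp [Finsupp.notMem_support_iff.1 hi]
      have hwi : wt i ≠ 0 := by
        fin_cases i <;> simp [wt]
      simpa [hwi] using this
  · rintro ⟨a, rfl⟩
    rw [wdeg, evT_C]
    simp

section Domain

variable [IsDomain K]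

theorem top_mul (Φ Ψ : MvPolynomial (Fin 2) K) : top (Φ * Ψ) = top Φ * top Ψ := by
  rw [top, map_mul, Polynomial.leadingCoeff_mul]
  rfl

theorem wdeg_mul {Φ Ψ : MvPolynomial (Fin 2) K} (h1 : Φ ≠ 0) (h2 : Ψ ≠ 0) :
    wdeg (Φ * Ψ) = wdeg Φ + wdeg Ψ := by
  rw [wdeg, map_mul, Polynomial.natDegree_mul (evT_eq_zero_iff.not.2 h1) (evT_eq_zero_iff.not.2 h2)]
  rfl

/-- A polynomial in one variable over a domain whose trailing degree equals its degree is a
monomial. -/
theorem eq_C_mul_X_pow_of_natTrailingDegree_eq {A : Type*} [CommRing A] (p : Polynomial A)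
    (h : p.natTrailingDegree = p.natDegree) :
    p = Polynomial.C p.leadingCoeff * Polynomial.X ^ p.natDegree := by
  ext m
  rw [Polynomial.coeff_C_mul, Polynomial.coeff_X_pow]
  by_cases hm : m = p.natDegree
  · subst hm
    simp
  · rw [if_neg hm, mul_zero]
    rcases lt_or_gt_of_ne hm with hlt | hgt
    · exact Polynomial.coeff_eq_zero_of_lt_natTrailingDegree (h ▸ hlt)
    · exact Polynomial.coeff_eq_zero_of_natDegree_lt hgt

/-- Divisors of nonzero isobaric polynomials are isobaric. -/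
theorem IsIso.of_mul_left {Φ Ψ : MvPolynomial (Fin 2) K} {k : ℕ} (h : IsIso (Φ * Ψ) k)
    (h0 : Φ * Ψ ≠ 0) : IsIso Φ (wdeg Φ) := by
  have hΦ : Φ ≠ 0 := left_ne_zero_of_mul h0
  have hΨ : Ψ ≠ 0 := right_ne_zero_of_mul h0
  have hΦ' : evT Φ ≠ 0 := evT_eq_zero_iff.not.2 hΦ
  have hΨ' : evT Ψ ≠ 0 := evT_eq_zero_iff.not.2 hΨ
  have he : evT Φ * evT Ψ = Polynomial.C (Φ * Ψ) * Polynomial.X ^ k := by
    rw [← map_mul]
    exact h.evT_eq
  have hd : (evT Φ).natDegree + (evT Ψ).natDegree = k := by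
    rw [← Polynomial.natDegree_mul hΦ' hΨ', he, Polynomial.natDegree_C_mul_X_pow k _ h0]
  have ht : (evT Φ).natTrailingDegree + (evT Ψ).natTrailingDegree = k := by
    rw [← Polynomial.natTrailingDegree_mul hΦ' hΨ', he,
      Polynomial.natTrailingDegree_mul_X_pow (by simpa using h0), Polynomial.natTrailingDegree_C,
      zero_add]
  have h1 := Polynomial.natTrailingDegree_le_natDegree (p := evT Φ)
  have h2 := Polynomial.natTrailingDegree_le_natDegree (p := evT Ψ)
  have h3 : (evT Φ).natTrailingDegree = (evT Φ).natDegree := by omega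
  rw [isIso_iff_evT]
  have h4 := eq_C_mul_X_pow_of_natTrailingDegree_eq (evT Φ) h3
  have h5 : (evT Φ).leadingCoeff = Φ := by
    conv_rhs => rw [← eval_one_evT Φ, h4]
    simp
  rw [h5] at h4
  exact h4

theorem IsIso.of_mul_right {Φ Ψ : MvPolynomial (Fin 2) K} {k : ℕ} (h : IsIso (Φ * Ψ) k)
    (h0 : Φ * Ψ ≠ 0) : IsIso Ψ (wdeg Ψ) := by
  rw [mul_comm] at h h0
  exact h.of_mul_left h0

theorem IsIso.of_dvd {Φ Ψ : MvPolynomial (Fin 2) K} {k : ℕ} (h : IsIso Ψ k) (h0 : Ψ ≠ 0)
    (hd : Φ ∣ Ψ) : IsIso Φ (wdeg Φ) := by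
  obtain ⟨χ, rfl⟩ := hd
  exact h.of_mul_left h0

end Domain

/-! ### Twists -/

/-- The twist `Q ↦ u⁴ Q`, `R ↦ u⁶ R`. -/
def twist (u : K) : MvPolynomial (Fin 2) K →ₐ[K] MvPolynomial (Fin 2) K :=
  aeval (fun i => C (u ^ wt i) * X i)

@[simp] theorem twist_X (u : K) (i : Fin 2) :
    twist u (X i : MvPolynomial (Fin 2) K) = C (u ^ wt i) * X i := by
  simp [twist]

@[simp] theorem twist_C (u a : K) : twist u (C a : MvPolynomial (Fin 2) K) = C a := by
  simp [twist]

/-- The twist is evaluation of `evT` at `t = u`. -/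
theorem twist_eq_eval (u : K) (Φ : MvPolynomial (Fin 2) K) :
    twist u Φ = Polynomial.eval (C u) (evT Φ) := by
  have h : (twist u : MvPolynomial (Fin 2) K →ₐ[K] _).toRingHom =
      ((Polynomial.evalRingHom (C u : MvPolynomial (Fin 2) K)).comp
      (evT : MvPolynomial (Fin 2) K →ₐ[K] _).toRingHom) := by
    apply MvPolynomial.ringHom_ext
    · intro a
      simp
    · intro i
      simp only [AlgHom.toRingHom_eq_coe, RingHom.coe_coe, RingHom.comp_apply, twist_X, evT_X,
        Polynomial.coe_evalRingHom, Polynomial.eval_mul, Polynomial.eval_C, Polynomial.eval_pow,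
        Polynomial.eval_X, map_pow]
      ring
  exact congrArg (fun f => f Φ) h

theorem IsIso.twist_eq {Φ : MvPolynomial (Fin 2) K} {k : ℕ} (h : IsIso Φ k) (u : K) :
    twist u Φ = C (u ^ k) * Φ := by
  rw [twist_eq_eval, h.evT_eq]
  simp only [Polynomial.eval_mul, Polynomial.eval_C, Polynomial.eval_pow, Polynomial.eval_X,
    map_pow]
  ring

/-- `evT` of a twist. -/
theorem evT_twist (u : K) (Φ : MvPolynomial (Fin 2) K) :
    evT (twist u Φ) = (evT Φ).comp (Polynomial.C (C u) * Polynomial.X) := by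
  have h : ((evT : MvPolynomial (Fin 2) K →ₐ[K] _).toRingHom.comp
      (twist u : MvPolynomial (Fin 2) K →ₐ[K] _).toRingHom) =
      ((Polynomial.compRingHom (Polynomial.C (C u) * Polynomial.X)).comp
      (evT : MvPolynomial (Fin 2) K →ₐ[K] _).toRingHom) := by
    apply MvPolynomial.ringHom_ext
    · intro a
      simp
    · intro i
      simp [mul_pow]
      ring
  exact congrArg (fun f => f Φ) h

theorem coeff_evT_twist (u : K) (Φ : MvPolynomial (Fin 2) K) (m : ℕ) :
    (evT (twist u Φ)).coeff m = C (u ^ m) * (evT Φ).coeff m := by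
  rw [evT_twist, Polynomial.comp_C_mul_X_coeff]
  simp [mul_comm]

theorem twist_one (Φ : MvPolynomial (Fin 2) K) : twist 1 Φ = Φ := by
  rw [twist_eq_eval]
  simpa using eval_one_evT Φ

theorem twist_twist (u v : K) (Φ : MvPolynomial (Fin 2) K) :
    twist u (twist v Φ) = twist (u * v) Φ := by
  have h : ((twist u : MvPolynomial (Fin 2) K →ₐ[K] _).comp (twist v)) = twist (u * v) := by
    apply MvPolynomial.algHom_ext
    intro i
    simp [mul_pow]
    ring
  exact congrArg (fun f => f Φ) h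

/-- The twist by a unit, as an algebra automorphism. -/
def twistEquiv (u : Kˣ) : MvPolynomial (Fin 2) K ≃ₐ[K] MvPolynomial (Fin 2) K :=
  AlgEquiv.ofAlgHom (twist (u : K)) (twist ((u⁻¹ : Kˣ) : K))
    (by ext1 i; simp only [AlgHom.comp_apply, twist_twist]; simp)
    (by ext1 i; simp only [AlgHom.comp_apply, twist_twist]; simp)

@[simp] theorem twistEquiv_apply (u : Kˣ) (Φ : MvPolynomial (Fin 2) K) :
    twistEquiv u Φ = twist (u : K) Φ := rfl

theorem wdeg_twist (u : Kˣ) (Φ : MvPolynomial (Fin 2) K) : wdeg (twist (u : K) Φ) = wdeg Φ := by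
  apply le_antisymm
  · rw [wdeg, wdeg, Polynomial.natDegree_le_iff_coeff_eq_zero]
    intro m hm
    rw [coeff_evT_twist, Polynomial.coeff_eq_zero_of_natDegree_lt hm, mul_zero]
  · rw [wdeg, wdeg, Polynomial.natDegree_le_iff_coeff_eq_zero]
    intro m hm
    have := Polynomial.coeff_eq_zero_of_natDegree_lt hm
    rw [coeff_evT_twist] at this
    have h2 : C (((u⁻¹ : Kˣ) : K) ^ m) * (C ((u : K) ^ m) * (evT Φ).coeff m) = 0 := by
      rw [this, mul_zero]
    rwa [← mul_assoc, ← C_mul, ← mul_pow, Units.inv_mul, one_pow, C_1, one_mul] at h2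

theorem top_twist (u : Kˣ) (Φ : MvPolynomial (Fin 2) K) :
    top (twist (u : K) Φ) = C ((u : K) ^ wdeg Φ) * top Φ := by
  rw [top, Polynomial.leadingCoeff, ← wdeg, wdeg_twist, coeff_evT_twist]
  rfl

/-! ### Derivations -/

/-- Two "derivations along a ring homomorphism" that agree on the variables are equal. -/
theorem leibniz_ext {S : Type*} [CommRing S] (φ : MvPolynomial (Fin 2) K →+* S)
    (δ₁ δ₂ : MvPolynomial (Fin 2) K → S)
    (ha1 : ∀ f g, δ₁ (f + g) = δ₁ f + δ₁ g) (ha2 : ∀ f g, δ₂ (f + g) = δ₂ f + δ₂ g)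
    (h1 : ∀ f g, δ₁ (f * g) = φ f * δ₁ g + φ g * δ₁ f)
    (h2 : ∀ f g, δ₂ (f * g) = φ f * δ₂ g + φ g * δ₂ f)
    (hC1 : ∀ a, δ₁ (C a) = 0) (hC2 : ∀ a, δ₂ (C a) = 0)
    (hX : ∀ i, δ₁ (X i) = δ₂ (X i)) : ∀ f, δ₁ f = δ₂ f := by
  intro f
  induction f using MvPolynomial.induction_on with
  | C a => rw [hC1, hC2]
  | add p q hp hq => rw [ha1, ha2, hp, hq]
  | mul_X p i hp => rw [h1, h2, hp, hX]

/-- The Euler derivation `Q ↦ 4Q`, `R ↦ 6R`. -/
def eulerD : Derivation K (MvPolynomial (Fin 2) K) (MvPolynomial (Fin 2) K) :=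
  mkDerivation K (fun i => ((wt i : ℕ) : MvPolynomial (Fin 2) K) * X i)

/-- The Ramanujan-Serre derivation `Q ↦ -4R`, `R ↦ -6Q²`. -/
def ramD : Derivation K (MvPolynomial (Fin 2) K) (MvPolynomial (Fin 2) K) :=
  mkDerivation K ![-4 * X 1, -6 * X 0 ^ 2]

@[simp] theorem eulerD_X (i : Fin 2) :
    eulerD (X i : MvPolynomial (Fin 2) K) = ((wt i : ℕ) : MvPolynomial (Fin 2) K) * X i := by
  simp [eulerD]

@[simp] theorem ramD_X_zero : ramD (X 0 : MvPolynomial (Fin 2) K) = -4 * X 1 := by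
  simp [ramD]

@[simp] theorem ramD_X_one : ramD (X 1 : MvPolynomial (Fin 2) K) = -6 * X 0 ^ 2 := by
  simp [ramD]

theorem evT_eulerD (Φ : MvPolynomial (Fin 2) K) :
    evT (eulerD Φ) = Polynomial.X * Polynomial.derivative (evT Φ) := by
  refine leibniz_ext (evT : MvPolynomial (Fin 2) K →ₐ[K] _).toRingHom
    (fun f => evT (eulerD f)) (fun f => Polynomial.X * Polynomial.derivative (evT f))
    ?_ ?_ ?_ ?_ ?_ ?_ ?_ Φ
  · intro f g
    simp only [map_add]
  · intro f g
    simp only [map_add, mul_add]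
  · intro f g
    simp only [Derivation.leibniz, map_add, smul_eq_mul, map_mul, AlgHom.toRingHom_eq_coe,
      RingHom.coe_coe]
  · intro f g
    simp only [map_mul, Polynomial.derivative_mul, AlgHom.toRingHom_eq_coe, RingHom.coe_coe]
    ring
  · intro a
    simp
  · intro a
    simp
  · intro i
    simp only [eulerD_X, map_mul, map_natCast, evT_X, Polynomial.derivative_mul,
      Polynomial.derivative_C, zero_mul, zero_add, Polynomial.derivative_X_pow]
    fin_cases i
    · simp [wt]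
      ring
    · simp [wt]
      ring

/-- Euler's identity for isobaric polynomials. -/
theorem IsIso.eulerD_eq {Φ : MvPolynomial (Fin 2) K} {k : ℕ} (h : IsIso Φ k) :
    eulerD Φ = (k : MvPolynomial (Fin 2) K) * Φ := by
  rw [← eval_one_evT (eulerD Φ), evT_eulerD, h.evT_eq]
  simp only [Polynomial.derivative_mul, Polynomial.derivative_C, zero_mul, zero_add,
    Polynomial.derivative_X_pow, Polynomial.eval_mul, Polynomial.eval_X, Polynomial.eval_C,
    Polynomial.eval_pow, one_pow, mul_one, one_mul]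
  ring

/-- The Ramanujan-Serre derivation raises the weight by `2`. -/
theorem IsIso.ramD {Φ : MvPolynomial (Fin 2) K} {k : ℕ} (h : IsIso Φ k) :
    IsIso (ramD Φ) (k + 2) := by
  refine IsWeightedHomogeneous.induction_on
    (motive := fun p _ => IsIso (SD.ramD p) (k + 2)) ?_ ?_ ?_ h
  · rw [map_zero]
    exact isIso_zero _
  · intro p q _ _ hp hq
    rw [map_add]
    exact hp.add hq
  · intro d r hd
    rw [SD.ramD, mkDerivation_monomial, Finsupp.sum, Finset.smul_sum]
    apply IsIso.sum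
    intro i hi
    have hi' : d i ≠ 0 := Finsupp.mem_support_iff.1 hi
    have hw := Finsupp.weight_sub_single_add (w := wt) hi'
    have h1 : IsIso (monomial (d - Finsupp.single i 1) ((d i : ℕ) : K)) (k - wt i) := by
      apply isWeightedHomogeneous_monomial
      omega
    have h2 : IsIso ((![-4 * X 1, -6 * X 0 ^ 2] : Fin 2 → MvPolynomial (Fin 2) K) i)
        (wt i + 2) := by
      fin_cases i
      · show IsIso (-4 * X 1 : MvPolynomial (Fin 2) K) (4 + 2)
        have : (-4 * X 1 : MvPolynomial (Fin 2) K) = C (-4) * X 1 := by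
          rw [map_neg, map_ofNat]
        rw [this]
        exact (isIso_X (1 : Fin 2)).C_mul _
      · show IsIso (-6 * X 0 ^ 2 : MvPolynomial (Fin 2) K) (6 + 2)
        have : (-6 * X 0 ^ 2 : MvPolynomial (Fin 2) K) = C (-6) * X 0 ^ 2 := by
          rw [map_neg, map_ofNat]
        rw [this]
        exact ((isIso_X (0 : Fin 2)).pow 2).C_mul _
    have h3 := (h1.mul h2).C_mul r
    have hle : wt i ≤ k := by omega
    have : k - wt i + (wt i + 2) = k + 2 := by omega
    rw [this] at h3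
    simpa [smul_eq_mul, MvPolynomial.smul_eq_C_mul] using h3

/-! ### Monomials of given weight -/

theorem weight_wt (d : Fin 2 →₀ ℕ) : Finsupp.weight wt d = d 0 * 4 + d 1 * 6 := by
  rw [Finsupp.weight_eq_sum, Fin.sum_univ_two]
  simp [wt]

theorem monomial_eq_X_pow (d : Fin 2 →₀ ℕ) (r : K) :
    (monomial d r : MvPolynomial (Fin 2) K) = C r * (X 0 ^ d 0 * X 1 ^ d 1) := by
  rw [monomial_eq, Finsupp.prod_fintype _ _ (fun i => by simp), Fin.prod_univ_two]

theorem isIso_X_pow_mul (a b : ℕ) :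
    IsIso (X 0 ^ a * X 1 ^ b : MvPolynomial (Fin 2) K) (4 * a + 6 * b) := by
  have := ((isIso_X (K := K) 0).pow a).mul ((isIso_X (K := K) 1).pow b)
  simpa [mul_comm] using this

/-- There are no nonzero isobaric polynomials of weight `2`. -/
theorem IsIso.eq_zero_of_weight_two {Φ : MvPolynomial (Fin 2) K} (h : IsIso Φ 2) : Φ = 0 := by
  apply IsWeightedHomogeneous.eq_zero_of_no_monomials h
  intro d
  rw [weight_wt]
  omega

/-- A nonzero isobaric polynomial of nonzero weight has weight at least `4`. -/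
theorem IsIso.four_le {Φ : MvPolynomial (Fin 2) K} {k : ℕ} (h : IsIso Φ k) (h0 : Φ ≠ 0)
    (hk : k ≠ 0) : 4 ≤ k := by
  obtain ⟨d, hd⟩ := exists_coeff_ne_zero h0
  have := h hd
  rw [weight_wt] at this
  omega

/-- An isobaric polynomial of nonzero weight has no constant term. -/
theorem IsIso.coeff_zero_eq_zero {Φ : MvPolynomial (Fin 2) K} {k : ℕ} (h : IsIso Φ k)
    (hk : k ≠ 0) : coeff 0 Φ = 0 := by
  apply h.coeff_eq_zero
  rw [weight_wt]
  simpa using hk.symm

/-- The designated monomial of weight `k`: `Q^(k/4)` if `4 ∣ k`, `Q^((k-6)/4) R` if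
`k ≡ 2 mod 4`, `k ≥ 6`, and `0` otherwise. -/
def mono (K : Type*) [CommRing K] (k : ℕ) : MvPolynomial (Fin 2) K :=
  if k % 4 = 0 then X 0 ^ (k / 4)
  else if k % 4 = 2 ∧ 6 ≤ k then X 0 ^ ((k - 6) / 4) * X 1 else 0

theorem isIso_mono (k : ℕ) : IsIso (mono K k) k := by
  unfold mono
  split_ifs with h1 h2
  · have := isIso_X_pow_mul (K := K) (k / 4) 0
    simp only [pow_zero, mul_one, mul_zero, add_zero] at this
    exact this.weight_cast (by omega)
  · have := isIso_X_pow_mul (K := K) ((k - 6) / 4) 1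
    simp only [pow_one, mul_one] at this
    exact this.weight_cast (by omega)
  · exact isIso_zero k

theorem X_pow_mul_eq_mono (b : ℕ) : ∀ a : ℕ, ∃ Φ' : MvPolynomial (Fin 2) K,
    IsIso Φ' (4 * a + 6 * b - 12) ∧
      (X 0 ^ a * X 1 ^ b : MvPolynomial (Fin 2) K) =
        mono K (4 * a + 6 * b) + (X 0 ^ 3 - X 1 ^ 2) * Φ' := by
  induction b using Nat.strong_induction_on with
  | _ b ih =>
    intro a
    rcases Nat.lt_or_ge b 2 with hb | hb
    · interval_cases b
      · refine ⟨0, isIso_zero _, ?_⟩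
        have h1 : (4 * a + 6 * 0) % 4 = 0 := by omega
        have h2 : (4 * a + 6 * 0) / 4 = a := by omega
        simp [mono, h1, h2]
      · refine ⟨0, isIso_zero _, ?_⟩
        have h1 : ¬ (4 * a + 6 * 1) % 4 = 0 := by omega
        have h2 : (4 * a + 6 * 1) % 4 = 2 ∧ 6 ≤ 4 * a + 6 * 1 := by omega
        have h3 : (4 * a + 6 * 1 - 6) / 4 = a := by omega
        simp [mono, h1, h2, h3]
    · obtain ⟨c, rfl⟩ : ∃ c, b = c + 2 := ⟨b - 2, by omega⟩
      obtain ⟨Φ'', h1, h2⟩ := ih c (by omega) (a + 3)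
      refine ⟨Φ'' - X 0 ^ a * X 1 ^ c, ?_, ?_⟩
      · have e1 : 4 * (a + 3) + 6 * c - 12 = 4 * a + 6 * (c + 2) - 12 := by omega
        have e2 : 4 * a + 6 * c = 4 * a + 6 * (c + 2) - 12 := by omega
        exact (h1.weight_cast e1).sub ((isIso_X_pow_mul a c).weight_cast e2)
      · have e : 4 * (a + 3) + 6 * c = 4 * a + 6 * (c + 2) := by omega
        rw [e] at h2
        have : (X 0 ^ a * X 1 ^ (c + 2) : MvPolynomial (Fin 2) K) =
            X 0 ^ (a + 3) * X 1 ^ c - (X 0 ^ 3 - X 1 ^ 2) * (X 0 ^ a * X 1 ^ c) := by ring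
        rw [this, h2]
        ring

/-- **Division lemma.** Every isobaric polynomial of weight `k` is a multiple of the designated
monomial modulo `Q³ - R²`. -/
theorem IsIso.exists_eq_mono_add {Φ : MvPolynomial (Fin 2) K} {k : ℕ} (h : IsIso Φ k) :
    ∃ (c : K) (Φ' : MvPolynomial (Fin 2) K), IsIso Φ' (k - 12) ∧
      Φ = C c * mono K k + (X 0 ^ 3 - X 1 ^ 2) * Φ' := by
  refine IsWeightedHomogeneous.induction_on
    (motive := fun p _ => ∃ (c : K) (Φ' : MvPolynomial (Fin 2) K), IsIso Φ' (k - 12) ∧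
      p = C c * mono K k + (X 0 ^ 3 - X 1 ^ 2) * Φ') ?_ ?_ ?_ h
  · exact ⟨0, 0, isIso_zero _, by simp⟩
  · rintro p q _ _ ⟨c1, Φ1, h1, rfl⟩ ⟨c2, Φ2, h2, rfl⟩
    refine ⟨c1 + c2, Φ1 + Φ2, h1.add h2, ?_⟩
    rw [map_add]
    ring
  · intro d r hd
    rw [weight_wt] at hd
    obtain ⟨Φ', h1, h2⟩ := X_pow_mul_eq_mono (K := K) (d 1) (d 0)
    have e : 4 * d 0 + 6 * d 1 = k := by omega
    rw [e] at h1 h2
    refine ⟨r, C r * Φ', h1.C_mul r, ?_⟩
    rw [monomial_eq_X_pow, h2]
    ring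

end

end Fermat.Agent.S16.SD
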