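import Mathlib
import Fermat.Agent.S16.SD.Iso
import Fermat.Agent.S16.SD.QSeries

set_option autoImplicit false

/-!
# Evaluation of isobaric polynomials at the q-series `Q = E₄`, `R = E₆`

Part of the Swinnerton-Dyer package (WP-SD of P-S16).  For a commutative ring `A`:
`evQ : A[Q,R] → A[[q]]`, the chain rule `12 θ(evQ Φ) = P evQ(eulerD Φ) + evQ(ramD Φ)`
(from Ramanujan's identities), and injectivity of `evQ` on each weight when `A` is a domain in
which `1728 ≠ 0`.
-/

namespace Fermat.Agent.S16.SD

open MvPolynomial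

noncomputable section

variable (A : Type*) [CommRing A]

/-- The two q-series `Q`, `R` as a family indexed by `Fin 2`. -/
def qr : Fin 2 → PowerSeries A := ![Qq A, Rq A]

@[simp] theorem qr_zero : qr A 0 = Qq A := rfl
@[simp] theorem qr_one : qr A 1 = Rq A := rfl

/-- Evaluation at `Q = E₄(q)`, `R = E₆(q)`. -/
def evQ : MvPolynomial (Fin 2) A →ₐ[A] PowerSeries A := aeval (qr A)

variable {A}

@[simp] theorem evQ_X (i : Fin 2) : evQ A (X i) = qr A i := by
  simp [evQ]

@[simp] theorem evQ_C (a : A) : evQ A (C a) = PowerSeries.C a := by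
  simp [evQ]

theorem constantCoeff_qr (i : Fin 2) : PowerSeries.constantCoeff (qr A i) = 1 := by
  fin_cases i
  · exact constantCoeff_Qq A
  · exact constantCoeff_Rq A

/-- Naturality of `evQ` in the coefficient ring. -/
theorem map_evQ {B : Type*} [CommRing B] (φ : A →+* B) (Φ : MvPolynomial (Fin 2) A) :
    PowerSeries.map φ (evQ A Φ) = evQ B (MvPolynomial.map φ Φ) := by
  have h : (PowerSeries.map φ).comp (evQ A : MvPolynomial (Fin 2) A →ₐ[A] _).toRingHom =
      ((evQ B : MvPolynomial (Fin 2) B →ₐ[B] _).toRingHom).comp (MvPolynomial.map φ) := by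
    apply MvPolynomial.ringHom_ext
    · intro a
      simp
    · intro i
      fin_cases i
      · simp only [AlgHom.toRingHom_eq_coe, RingHom.coe_comp, RingHom.coe_coe,
          Function.comp_apply, map_X]
        show PowerSeries.map φ (evQ A (X 0)) = evQ B (X 0)
        rw [evQ_X, evQ_X, qr_zero, qr_zero, Qq, Qq]
        ext n
        simp
      · simp only [AlgHom.toRingHom_eq_coe, RingHom.coe_comp, RingHom.coe_coe,
          Function.comp_apply, map_X]
        show PowerSeries.map φ (evQ A (X 1)) = evQ B (X 1)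
        rw [evQ_X, evQ_X, qr_one, qr_one, Rq, Rq]
        ext n
        simp
  exact congrArg (fun f => f Φ) h

theorem IsIso.map {B : Type*} [CommRing B] (φ : A →+* B) {Φ : MvPolynomial (Fin 2) A} {k : ℕ}
    (h : IsIso Φ k) : IsIso (MvPolynomial.map φ Φ) k := by
  intro d hd
  apply h
  intro h0
  apply hd
  rw [coeff_map, h0, map_zero]

/-- **Chain rule.** -/
theorem theta_evQ (hR : RamanujanZ) (Φ : MvPolynomial (Fin 2) A) :
    12 * theta (evQ A Φ) = Pq A * evQ A (eulerD Φ) + evQ A (ramD Φ) := by
  refine leibniz_ext (evQ A : MvPolynomial (Fin 2) A →ₐ[A] _).toRingHom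
    (fun f => 12 * theta (evQ A f)) (fun f => Pq A * evQ A (eulerD f) + evQ A (ramD f))
    ?_ ?_ ?_ ?_ ?_ ?_ ?_ Φ
  · intro f g
    simp only [map_add, theta_add, mul_add]
  · intro f g
    simp only [map_add, mul_add]
    ring
  · intro f g
    simp only [map_mul, theta_mul, AlgHom.toRingHom_eq_coe, RingHom.coe_coe]
    ring
  · intro f g
    simp only [Derivation.leibniz, map_add, smul_eq_mul, map_mul, AlgHom.toRingHom_eq_coe,
      RingHom.coe_coe]
    ring
  · intro a
    simp [theta_C]
  · intro a
    simp
  · intro i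
    fin_cases i
    · show 12 * theta (evQ A (X 0)) = Pq A * evQ A (eulerD (X 0)) + evQ A (ramD (X 0))
      rw [eulerD_X, ramD_X_zero, evQ_X, qr_zero]
      simp only [map_mul, map_neg, map_natCast, evQ_X, qr_zero, qr_one, wt_zero, map_ofNat]
      have := theta_Qq (A := A) hR
      linear_combination 4 * this
    · show 12 * theta (evQ A (X 1)) = Pq A * evQ A (eulerD (X 1)) + evQ A (ramD (X 1))
      rw [eulerD_X, ramD_X_one, evQ_X, qr_one]
      simp only [map_mul, map_neg, map_natCast, map_pow, evQ_X, qr_zero, qr_one, wt_one,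
        map_ofNat]
      have := theta_Rq (A := A) hR
      linear_combination 6 * this

/-- Chain rule for isobaric polynomials. -/
theorem IsIso.theta_evQ (hR : RamanujanZ) {Φ : MvPolynomial (Fin 2) A} {k : ℕ} (h : IsIso Φ k) :
    12 * theta (evQ A Φ) = (k : PowerSeries A) * Pq A * evQ A Φ + evQ A (SD.ramD Φ) := by
  rw [SD.theta_evQ hR, h.eulerD_eq, map_mul, map_natCast]
  ring

theorem IsIso.exists_eq_C {Φ : MvPolynomial (Fin 2) A} (h : IsIso Φ 0) : ∃ a : A, Φ = C a := by
  by_cases h0 : Φ = 0
  · exact ⟨0, by simp [h0]⟩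
  · exact wdeg_eq_zero_iff.1 (h.wdeg_eq h0)

theorem constantCoeff_evQ_mono (k : ℕ) :
    PowerSeries.constantCoeff (evQ A (mono A k)) = 1 ∨ mono A k = 0 := by
  unfold mono
  split_ifs with h1 h2
  · left
    simp [constantCoeff_Qq]
  · left
    simp [constantCoeff_Qq, constantCoeff_Rq]
  · right
    rfl

theorem evQ_X_cube_sub : evQ A (X 0 ^ 3 - X 1 ^ 2) = 1728 * Dq A := by
  simp only [map_sub, map_pow, evQ_X, qr_zero, qr_one]
  exact Qq_cube_sub_Rq_sq A

/-- **Injectivity of the q-expansion on each weight**: an isobaric polynomial over a domain in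
which `1728 ≠ 0` whose q-expansion vanishes is zero. -/
theorem IsIso.eq_zero_of_evQ_eq_zero [IsDomain A] (h1728 : (1728 : A) ≠ 0) :
    ∀ (k : ℕ) {Φ : MvPolynomial (Fin 2) A}, IsIso Φ k → evQ A Φ = 0 → Φ = 0 := by
  intro k
  induction k using Nat.strong_induction_on with
  | _ k ih =>
    intro Φ h he
    rcases Nat.eq_zero_or_pos k with hk | hk
    · subst hk
      obtain ⟨a, rfl⟩ := h.exists_eq_C
      rw [evQ_C] at he
      have : a = 0 := by
        have := congrArg PowerSeries.constantCoeff he
        simpa using this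
      rw [this, map_zero]
    · obtain ⟨c, Φ', h', hΦ⟩ := h.exists_eq_mono_add
      have hc : C c * mono A k = 0 := by
        rcases constantCoeff_evQ_mono (A := A) k with h1 | h1
        · have h2 := congrArg PowerSeries.constantCoeff he
          rw [hΦ, map_add, map_mul, map_mul, evQ_C, evQ_X_cube_sub, map_add, map_mul, map_mul,
            map_mul, h1, constantCoeff_Dq] at h2
          simp only [PowerSeries.constantCoeff_C, mul_one, mul_zero, zero_mul, add_zero,
            map_zero] at h2
          rw [h2, map_zero, zero_mul]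
        · rw [h1, mul_zero]
      rw [hc, zero_add] at hΦ
      have h3 : evQ A Φ' = 0 := by
        rw [hΦ, map_mul, evQ_X_cube_sub] at he
        have h4 : (1728 : PowerSeries A) * Dq A ≠ 0 := by
          apply mul_ne_zero
          · intro h5
            have := congrArg PowerSeries.constantCoeff h5
            rw [← map_ofNat (PowerSeries.C (R := A)) 1728] at this
            simp only [PowerSeries.constantCoeff_C, map_zero] at this
            exact h1728 this
          · exact Dq_ne_zero A
        exact (mul_eq_zero.1 he).resolve_left h4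
      have h5 : Φ' = 0 := ih (k - 12) (by omega) h' h3
      rw [hΦ, h5, mul_zero]

end

end Fermat.Agent.S16.SD
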