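import Mathlib
import Fermat.Agent.S16.SD.Iso
import Fermat.Agent.S16.SD.QSeries
import Fermat.Agent.S23.LevelOne

set_option autoImplicit false

/-!
# Level-one structure theorem over `ℚ` in polynomial form (WP-SD-STRUCT of P-S16)

helper48.  A level-one modular form of weight `k` with rational q-expansion is an isobaric
polynomial of weight `k` in `Q = E₄` and `R = E₆` with rational coefficients:
`exists_isIso_rat`.
-/

namespace Fermat.Agent.S16.SD

open UpperHalfPlane ModularForm MatrixGroups EisensteinSeries
open scoped ModularForm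
open Fermat.Agent.S23 Fermat.Agent.S23.LevelOne Fermat.Agent.S23.IntSeries

noncomputable section

/-- The pair of q-series `(Q, R) = (E₄, E₆)` with rational coefficients. -/
def qrSeries : Fin 2 → PowerSeries ℚ := fun i => if i = 0 then Qq ℚ else Rq ℚ

/-- Evaluation of a polynomial in `Q, R` at the rational q-series, with complex coefficients. -/
def evC : MvPolynomial (Fin 2) ℚ →+* PowerSeries ℂ :=
  (PowerSeries.map (algebraMap ℚ ℂ)).comp (MvPolynomial.aeval qrSeries).toRingHom

theorem evC_apply (Φ : MvPolynomial (Fin 2) ℚ) :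
    evC Φ = PowerSeries.map (algebraMap ℚ ℂ) (MvPolynomial.aeval qrSeries Φ) := rfl

theorem map_map_int (f : PowerSeries ℤ) :
    PowerSeries.map (algebraMap ℚ ℂ) (PowerSeries.map (Int.castRingHom ℚ) f) =
      PowerSeries.map (Int.castRingHom ℂ) f := by
  ext n
  simp

theorem evC_X0 : evC (MvPolynomial.X 0) = qExpansion 1 E₄ := by
  rw [evC_apply, MvPolynomial.aeval_X, qrSeries, if_pos rfl, Qq, map_map_int, qExpansion_E4]

theorem evC_X1 : evC (MvPolynomial.X 1) = qExpansion 1 E₆ := by
  rw [evC_apply, MvPolynomial.aeval_X, qrSeries, if_neg (by decide), Rq, map_map_int,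
    qExpansion_E6]

theorem evC_C (a : ℚ) : evC (MvPolynomial.C a) = PowerSeries.C (a : ℂ) := by
  rw [evC_apply, MvPolynomial.aeval_C,
    show algebraMap ℚ (PowerSeries ℚ) a = PowerSeries.C a from rfl, PowerSeries.map_C]
  rfl

theorem qExpansion_zero_form (k : ℤ) :
    qExpansion 1 ((0 : ModularForm 𝒮ℒ k) : ℍ → ℂ) = 0 := by
  rw [show ((0 : ModularForm 𝒮ℒ k) : ℍ → ℂ) = 0 from rfl, qExpansion_zero]

theorem exists_isIso_aux :
    ∀ (n : ℕ) (k : ℤ), k < 12 * n → ∀ f : ModularForm 𝒮ℒ k, HasCoeffsIn ratSubring f →
      ∃ Φ : MvPolynomial (Fin 2) ℚ, IsIso Φ k.toNat ∧ evC Φ = qExpansion 1 f := by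
  intro n
  induction n with
  | zero =>
    intro k hk f _
    have hk' : k < 0 := by simpa using hk
    rw [eq_zero_of_coe_eq_zero (ModularFormClass.levelOne_neg_weight_eq_zero hk' f)]
    exact ⟨0, isIso_zero _, by rw [map_zero, qExpansion_zero_form]⟩
  | succ n ih =>
    intro k hk f hf
    rcases lt_trichotomy k 0 with hneg | rfl | hpos
    · rw [eq_zero_of_coe_eq_zero (ModularFormClass.levelOne_neg_weight_eq_zero hneg f)]
      exact ⟨0, isIso_zero _, by rw [map_zero, qExpansion_zero_form]⟩
    · -- weight zero: constants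
      obtain ⟨c, hc⟩ := ModularFormClass.levelOne_weight_zero_const f
      have hf1 : f = c • (1 : ModularForm 𝒮ℒ 0) := by
        ext z
        simp [hc]
      have hq : qExpansion 1 f = PowerSeries.C c := by
        rw [hf1, show ((c • (1 : ModularForm 𝒮ℒ 0) : ModularForm 𝒮ℒ 0) : ℍ → ℂ) =
          c • ⇑(1 : ModularForm 𝒮ℒ 0) from rfl,
          ModularForm.qExpansion_smul one_pos one_mem_strictPeriods_SL c (1 : ModularForm 𝒮ℒ 0),
          ModularForm.qExpansion_one]
        ext m
        simp [PowerSeries.coeff_C, PowerSeries.coeff_one]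
      have hcR : c ∈ ratSubring := by
        have h0 := hf 0
        rw [hq] at h0
        simpa using h0
      obtain ⟨c0, rfl⟩ := mem_ratSubring.1 hcR
      exact ⟨MvPolynomial.C c0, isIso_C c0, by rw [evC_C, hq]⟩
    · rcases Int.even_or_odd k with he | ho
      · by_cases h2 : k = 2
        · subst h2
          have h := ModularForm.levelOne_weight_two_rank_zero
          rw [rank_zero_iff_forall_zero] at h
          rw [h f]
          exact ⟨0, isIso_zero _, by rw [map_zero, qExpansion_zero_form]⟩
        · have hk4 : 4 ≤ k := by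
            obtain ⟨r, hr⟩ := he
            omega
          obtain ⟨a, b, hab⟩ : ∃ a b : ℕ, (a : ℤ) * 4 + (b : ℤ) * 6 = k := by
            obtain ⟨r, hr⟩ := he
            rcases Int.even_or_odd' r with ⟨s, hs | hs⟩
            · refine ⟨s.toNat, 0, ?_⟩
              have : 0 ≤ s := by omega
              rw [Int.toNat_of_nonneg this]
              omega
            · refine ⟨(s - 1).toNat, 1, ?_⟩
              have : 0 ≤ s - 1 := by omega
              rw [Int.toNat_of_nonneg this]
              omega
          set G : ModularForm 𝒮ℒ k := ModularForm.mcast hab ((E₄.pow a).mul (E₆.pow b)) with hGdef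
          have hGq : qExpansion 1 G = qExpansion 1 E₄ ^ a * qExpansion 1 E₆ ^ b := by
            rw [hGdef, ModularForm.qExpansion_mcast,
              ModularForm.qExpansion_mul one_pos one_mem_strictPeriods_SL,
              ModularForm.qExpansion_pow one_pos one_mem_strictPeriods_SL,
              ModularForm.qExpansion_pow one_pos one_mem_strictPeriods_SL]
          have hGR : HasCoeffsIn ratSubring G :=
            hasCoeffsIn_mcast _ (hasCoeffsIn_mul (hasCoeffsIn_pow (hasCoeffsIn_E4 _) a)
              (hasCoeffsIn_pow (hasCoeffsIn_E6 _) b))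
          have hG0 : PowerSeries.coeff 0 (qExpansion 1 G) = 1 := by
            rw [hGq, PowerSeries.coeff_zero_eq_constantCoeff_apply, map_mul, map_pow, map_pow,
              ← PowerSeries.coeff_zero_eq_constantCoeff_apply,
              ← PowerSeries.coeff_zero_eq_constantCoeff_apply,
              E_qExpansion_coeff_zero (by norm_num) ⟨2, rfl⟩,
              E_qExpansion_coeff_zero (by norm_num) ⟨3, rfl⟩]
            simp
          have hc : PowerSeries.coeff 0 (qExpansion 1 f) ∈ ratSubring := hf 0
          obtain ⟨c0, hc0⟩ := mem_ratSubring.1 hc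
          set c : ℂ := PowerSeries.coeff 0 (qExpansion 1 f) with hcdef
          have hsubR : HasCoeffsIn ratSubring (f - c • G) :=
            hasCoeffsIn_sub hf (hasCoeffsIn_smul hc hGR)
          have hsubq : qExpansion 1 ((f - c • G : ModularForm 𝒮ℒ k) : ℍ → ℂ) =
              qExpansion 1 f - c • qExpansion 1 G := by
            rw [show ((f - c • G : ModularForm 𝒮ℒ k) : ℍ → ℂ) = ⇑f - ⇑(c • G) from rfl,
              ModularForm.qExpansion_sub one_pos one_mem_strictPeriods_SL f (c • G),
              show ((c • G : ModularForm 𝒮ℒ k) : ℍ → ℂ) = c • ⇑G from rfl,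
              ModularForm.qExpansion_smul one_pos one_mem_strictPeriods_SL c G]
          have h0 : PowerSeries.coeff 0
              (qExpansion 1 ((f - c • G : ModularForm 𝒮ℒ k) : ℍ → ℂ)) = 0 := by
            rw [hsubq, map_sub, PowerSeries.coeff_smul, hG0]
            simp [hcdef]
          obtain ⟨g, hg⟩ := exists_eq_mulDelta (f - c • G) h0
          have hgR : HasCoeffsIn ratSubring g := hasCoeffsIn_of_mulDelta (hg ▸ hsubR)
          -- the q-expansion of `f`
          have hfq : qExpansion 1 f = c • qExpansion 1 G +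
              qExpansion 1 ModularForm.discriminant * qExpansion 1 g := by
            have h1 := qExpansion_mulDelta k g
            rw [hg, hsubq] at h1
            rw [← h1]
            ring
          obtain ⟨Ψ, hΨiso, hΨ, hΨ0⟩ : ∃ Ψ : MvPolynomial (Fin 2) ℚ,
              IsIso Ψ (k.toNat - 12) ∧ evC Ψ = qExpansion 1 g ∧ (k < 12 → Ψ = 0) := by
            by_cases h12 : k < 12
            · have hneg : k - 12 < 0 := by omega
              rw [eq_zero_of_coe_eq_zero (ModularFormClass.levelOne_neg_weight_eq_zero hneg g)]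
              exact ⟨0, isIso_zero _, by rw [map_zero, qExpansion_zero_form], fun _ => rfl⟩
            · obtain ⟨Ψ, h1, h2⟩ := ih (k - 12) (by push_cast at hk; omega) g hgR
              refine ⟨Ψ, h1.weight_cast ?_, h2, fun h => absurd h h12⟩
              omega
          refine ⟨MvPolynomial.C c0 * MvPolynomial.X 0 ^ a * MvPolynomial.X 1 ^ b +
            MvPolynomial.C (1 / 1728) * (MvPolynomial.X 0 ^ 3 - MvPolynomial.X 1 ^ 2) * Ψ, ?_, ?_⟩
          · have h1 : IsIso (MvPolynomial.C c0 * MvPolynomial.X 0 ^ a * MvPolynomial.X 1 ^ b :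
                MvPolynomial (Fin 2) ℚ) (0 + a * wt 0 + b * wt 1) :=
              ((isIso_C c0).mul ((isIso_X 0).pow a)).mul ((isIso_X 1).pow b)
            have h2 : IsIso (MvPolynomial.C (1 / 1728) *
                (MvPolynomial.X 0 ^ 3 - MvPolynomial.X 1 ^ 2) * Ψ : MvPolynomial (Fin 2) ℚ)
                (0 + 12 + (k.toNat - 12)) := by
              refine ((isIso_C _).mul (IsIso.sub ?_ ?_)).mul hΨiso
              · exact ((isIso_X 0).pow 3).weight_cast (by simp [wt])
              · exact ((isIso_X 1).pow 2).weight_cast (by simp [wt])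
            by_cases h12 : k < 12
            · -- then `Ψ = 0`
              rw [hΨ0 h12, mul_zero, add_zero]
              refine h1.weight_cast ?_
              simp only [wt_zero, wt_one]
              omega
            · refine IsIso.add (h1.weight_cast ?_) (h2.weight_cast ?_)
              · simp only [wt_zero, wt_one]
                omega
              · omega
          · rw [map_add, map_mul, map_mul, map_mul, map_mul, map_sub, map_pow, map_pow, map_pow,
              map_pow, evC_C, evC_C, evC_X0, evC_X1, hΨ, hfq, hGq, qExpansion_discriminant_eq]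
            rw [PowerSeries.smul_eq_C_mul, PowerSeries.smul_eq_C_mul]
            have h1728 : (((1 / 1728 : ℚ)) : ℂ) = (1 / 1728 : ℂ) := by push_cast; rfl
            rw [h1728, ← hc0]
            ring
      · rw [ModularForm.levelOne_odd_weight_eq_zero ho f]
        exact ⟨0, isIso_zero _, by rw [map_zero, qExpansion_zero_form]⟩

/-- Level-one forms with rational q-expansion, any integer weight. -/
theorem exists_isIso_of_hasCoeffsIn {k : ℤ} (f : ModularForm 𝒮ℒ k)
    (hf : HasCoeffsIn ratSubring f) :
    ∃ Φ : MvPolynomial (Fin 2) ℚ, IsIso Φ k.toNat ∧ evC Φ = qExpansion 1 f := by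
  obtain ⟨n, hn⟩ : ∃ n : ℕ, k < 12 * n := by
    refine ⟨k.toNat + 1, ?_⟩
    have := Int.self_le_toNat k
    push_cast
    omega
  exact exists_isIso_aux n k hn f hf

/-- **Level-one structure theorem over `ℚ` in polynomial form.**  A level-one form of weight `k`
whose q-expansion has rational coefficients `r n` is an isobaric polynomial of weight `k` in
`Q = E₄`, `R = E₆` with rational coefficients. -/
theorem exists_isIso_rat {k : ℕ} (f : ModularForm 𝒮ℒ (k : ℤ)) (r : ℕ → ℚ)
    (hr : ∀ n, (qExpansion 1 f).coeff n = (r n : ℂ)) :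
    ∃ Φ : MvPolynomial (Fin 2) ℚ, IsIso Φ k ∧
      ∀ n, PowerSeries.coeff n
        (MvPolynomial.aeval (fun i : Fin 2 => if i = 0 then Qq ℚ else Rq ℚ) Φ) = r n := by
  have hf : HasCoeffsIn ratSubring f := fun n => mem_ratSubring.2 ⟨r n, (hr n).symm⟩
  obtain ⟨Φ, hΦ, hq⟩ := exists_isIso_of_hasCoeffsIn f hf
  refine ⟨Φ, by simpa using hΦ, fun n => ?_⟩
  have h1 := congrArg (PowerSeries.coeff n) hq
  rw [evC_apply, PowerSeries.coeff_map, hr n] at h1
  have h2 : ((PowerSeries.coeff n (MvPolynomial.aeval qrSeries Φ) : ℚ) : ℂ) = (r n : ℂ) := h1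
  exact_mod_cast h2

end

end Fermat.Agent.S16.SD
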