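import Mathlib
import Fermat.Agent.S16.SD.EvalQ
import Fermat.Agent.S16.SD.StructQ

set_option autoImplicit false

/-!
# Reduction modulo `l` of level-one forms with `l`-integral rational q-expansion

Part of the Swinnerton-Dyer package (WP-SD of P-S16).  From the structure theorem over `ℚ`
(`exists_isIso_rat`) and the injectivity of the q-expansion modulo `l` on each weight we get: a
level-one form of weight `k` whose q-expansion coefficients are `l`-integral rationals `r n` is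
represented modulo `l` by an isobaric polynomial over `ZMod l` whose q-expansion is the
coefficientwise reduction `(r n : ZMod l)`.
-/

namespace Fermat.Agent.S16.SD

open MvPolynomial UpperHalfPlane ModularForm
open scoped MatrixGroups

noncomputable section

/-- Clearing denominators of a polynomial with rational coefficients. -/
theorem exists_int_multiple (Φ : MvPolynomial (Fin 2) ℚ) :
    ∃ (D : ℕ) (Ψ : MvPolynomial (Fin 2) ℤ), D ≠ 0 ∧
      MvPolynomial.map (Int.castRingHom ℚ) Ψ = C (D : ℚ) * Φ := by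
  classical
  set D : ℕ := ∏ d ∈ Φ.support, (coeff d Φ).den with hD
  have hD0 : D ≠ 0 := Finset.prod_ne_zero_iff.2 fun d _ => (coeff d Φ).den_nz
  refine ⟨D, ∑ d ∈ Φ.support, monomial d ((D / (coeff d Φ).den : ℕ) * (coeff d Φ).num), hD0, ?_⟩
  rw [map_sum]
  conv_rhs => rw [← support_sum_monomial_coeff Φ, Finset.mul_sum]
  apply Finset.sum_congr rfl
  intro d hd
  rw [map_monomial, C_mul_monomial]
  congr 1
  have hdvd : (coeff d Φ).den ∣ D := Finset.dvd_prod_of_mem _ hd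
  have hden : ((coeff d Φ).den : ℚ) ≠ 0 := Nat.cast_ne_zero.2 (coeff d Φ).den_nz
  simp only [eq_intCast, Int.cast_mul, Int.cast_natCast]
  rw [Nat.cast_div hdvd hden]
  conv_rhs => rw [← Rat.num_div_den (coeff d Φ)]
  field_simp

theorem IsIso.of_map_int {Ψ : MvPolynomial (Fin 2) ℤ} {Φ : MvPolynomial (Fin 2) ℚ} {D k : ℕ}
    (_hD : D ≠ 0) (hΦ : IsIso Φ k)
    (h : MvPolynomial.map (Int.castRingHom ℚ) Ψ = C (D : ℚ) * Φ) : IsIso Ψ k := by
  intro d hd
  apply hΦ
  intro h0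
  apply hd
  have := congrArg (coeff d) h
  rw [coeff_map, coeff_C_mul, h0, mul_zero, eq_intCast] at this
  exact_mod_cast this

variable {l : ℕ} [Fact l.Prime]

theorem c1728_ne_zero_of_five_le (hl : 5 ≤ l) : (1728 : ZMod l) ≠ 0 := by
  have hp : l.Prime := Fact.out
  intro h
  have h1 : ((1728 : ℕ) : ZMod l) = 0 := by exact_mod_cast h
  rw [ZMod.natCast_eq_zero_iff] at h1
  have h2 : l ∣ 2 ^ 6 * 3 ^ 3 := by
    norm_num
    exact h1
  rcases (Nat.Prime.dvd_mul hp).1 h2 with h3 | h3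
  · have := Nat.le_of_dvd (by norm_num) (hp.dvd_of_dvd_pow h3)
    omega
  · have := Nat.le_of_dvd (by norm_num) (hp.dvd_of_dvd_pow h3)
    omega

/-- **Descent**: removing the factors `l` from the denominator. -/
theorem exists_prime_to_l_multiple (hl : 5 ≤ l) (k : ℕ) (r : ℕ → ℚ)
    (hint : ∀ n, ¬ l ∣ (r n).den) :
    ∀ (D : ℕ), D ≠ 0 → ∀ Ψ : MvPolynomial (Fin 2) ℤ, IsIso Ψ k →
      (∀ n, ((PowerSeries.coeff n (evQ ℤ Ψ) : ℤ) : ℚ) = D * r n) →
      ∃ (D' : ℕ) (Ψ' : MvPolynomial (Fin 2) ℤ), ¬ l ∣ D' ∧ IsIso Ψ' k ∧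
        ∀ n, ((PowerSeries.coeff n (evQ ℤ Ψ') : ℤ) : ℚ) = D' * r n := by
  have hp : l.Prime := Fact.out
  intro D
  induction D using Nat.strong_induction_on with
  | _ D ih =>
    intro hD Ψ hΨ hc
    by_cases hlD : l ∣ D
    · obtain ⟨D₁, rfl⟩ := hlD
      have hD₁ : D₁ ≠ 0 := right_ne_zero_of_mul hD
      -- all coefficients are divisible by `l`
      have hdiv : ∀ n, (l : ℤ) ∣ PowerSeries.coeff n (evQ ℤ Ψ) := by
        intro n
        have h1 := hc n
        have hb : ((r n).den : ℚ) ≠ 0 := Nat.cast_ne_zero.2 (r n).den_nz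
        have h2 : (PowerSeries.coeff n (evQ ℤ Ψ) : ℤ) * ((r n).den : ℤ) =
            (l : ℤ) * (D₁ * (r n).num) := by
          have h3 : ((PowerSeries.coeff n (evQ ℤ Ψ) : ℤ) : ℚ) * ((r n).den : ℚ) =
              (l : ℚ) * (D₁ * (r n).num) := by
            rw [h1]
            have h4 := Rat.mul_den_eq_num (r n)
            push_cast
            linear_combination ((l : ℚ) * (D₁ : ℚ)) * h4
          exact_mod_cast h3
        have h4 : (l : ℤ) ∣ (PowerSeries.coeff n (evQ ℤ Ψ) : ℤ) * ((r n).den : ℤ) :=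
          ⟨_, h2⟩
        have hpl : Prime (l : ℤ) := Nat.prime_iff_prime_int.1 hp
        rcases hpl.dvd_or_dvd h4 with h5 | h5
        · exact h5
        · exfalso
          exact hint n (by exact_mod_cast h5)
      have hmap : evQ (ZMod l) (MvPolynomial.map (Int.castRingHom (ZMod l)) Ψ) = 0 := by
        rw [← map_evQ]
        ext n
        rw [PowerSeries.coeff_map, map_zero, eq_intCast, ZMod.intCast_zmod_eq_zero_iff_dvd]
        exact hdiv n
      have hzero : MvPolynomial.map (Int.castRingHom (ZMod l)) Ψ = 0 :=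
        IsIso.eq_zero_of_evQ_eq_zero (c1728_ne_zero_of_five_le hl) k
          (hΨ.map (Int.castRingHom (ZMod l))) hmap
      obtain ⟨Ψ₁, hΨ₁⟩ := (MvPolynomial.C_dvd_iff_zmod l Ψ).2 hzero
      have hl0 : (C (l : ℤ) : MvPolynomial (Fin 2) ℤ) ≠ 0 := by
        rw [Ne, ← map_zero (C (R := ℤ) (σ := Fin 2)), (C_injective (Fin 2) ℤ).eq_iff]
        exact_mod_cast hp.ne_zero
      have hΨ₁iso : IsIso Ψ₁ k := by
        by_cases h0 : Ψ = 0
        · have : Ψ₁ = 0 := by
            rw [h0] at hΨ₁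
            exact (mul_eq_zero.1 hΨ₁.symm).resolve_left hl0
          rw [this]
          exact isIso_zero k
        · have h1 : IsIso (C (l : ℤ) * Ψ₁) k := hΨ₁ ▸ hΨ
          have h2 : IsIso Ψ₁ (wdeg Ψ₁) := h1.of_mul_right (hΨ₁ ▸ h0)
          have h3 : IsIso (C (l : ℤ) * Ψ₁) (wdeg Ψ₁) := h2.C_mul _
          have h4 := h3.weight_unique (hΨ₁ ▸ h0) h1
          exact h2.weight_cast h4
      have hc₁ : ∀ n, ((PowerSeries.coeff n (evQ ℤ Ψ₁) : ℤ) : ℚ) = D₁ * r n := by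
        intro n
        have h1 := hc n
        rw [hΨ₁, map_mul, evQ_C, PowerSeries.coeff_C_mul] at h1
        have hlq : (l : ℚ) ≠ 0 := Nat.cast_ne_zero.2 hp.ne_zero
        push_cast at h1
        have h2 : (l : ℚ) * ((PowerSeries.coeff n (evQ ℤ Ψ₁) : ℤ) : ℚ) = l * (D₁ * r n) := by
          rw [h1]
          ring
        exact mul_left_cancel₀ hlq h2
      have hlt : D₁ < l * D₁ := by
        have : 2 ≤ l := hp.two_le
        nlinarith [Nat.pos_of_ne_zero hD₁]
      exact ih D₁ hlt hD₁ Ψ₁ hΨ₁iso hc₁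
    · exact ⟨D, Ψ, hlD, hΨ, hc⟩

/-- The cast of an `l`-integral rational to `ZMod l` is multiplicative against naturals. -/
theorem ratCast_zmod_natCast_mul (D : ℕ) (x : ℚ) (hx : ¬ l ∣ x.den) :
    (((D : ℚ) * x : ℚ) : ZMod l) = (D : ZMod l) * (x : ZMod l) := by
  have h1 : (((D : ℚ).den : ℕ) : ZMod l) ≠ 0 := by
    simp
  have h2 : ((x.den : ℕ) : ZMod l) ≠ 0 := by
    rw [Ne, ZMod.natCast_eq_zero_iff]
    exact hx
  rw [Rat.cast_mul_of_ne_zero h1 h2, Rat.cast_natCast]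

/-- **Reduction modulo `l`.** -/
theorem exists_reduction (hl : 5 ≤ l) {k : ℕ} (f : ModularForm 𝒮ℒ (k : ℤ)) (r : ℕ → ℚ)
    (hr : ∀ n, (qExpansion 1 f).coeff n = (r n : ℂ)) (hint : ∀ n, ¬ l ∣ (r n).den) :
    ∃ Ψ : MvPolynomial (Fin 2) (ZMod l), IsIso Ψ k ∧
      ∀ n, PowerSeries.coeff n (evQ (ZMod l) Ψ) = ((r n : ℚ) : ZMod l) := by
  have hp : l.Prime := Fact.out
  obtain ⟨Φ, hΦiso, hΦ⟩ := exists_isIso_rat f r hr
  have hev : (MvPolynomial.aeval (fun i : Fin 2 => if i = 0 then Qq ℚ else Rq ℚ) :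
      MvPolynomial (Fin 2) ℚ →ₐ[ℚ] PowerSeries ℚ) = evQ ℚ := by
    unfold evQ
    congr 1
    funext i
    fin_cases i <;> rfl
  rw [hev] at hΦ
  obtain ⟨D, Ψ, hD, hΨ⟩ := exists_int_multiple Φ
  have hΨiso : IsIso Ψ k := IsIso.of_map_int hD hΦiso hΨ
  have hc : ∀ n, ((PowerSeries.coeff n (evQ ℤ Ψ) : ℤ) : ℚ) = D * r n := by
    intro n
    have h1 := map_evQ (Int.castRingHom ℚ) Ψ
    rw [hΨ, map_mul, evQ_C] at h1
    have h2 := congrArg (PowerSeries.coeff n) h1
    rw [PowerSeries.coeff_map, PowerSeries.coeff_C_mul, hΦ, eq_intCast] at h2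
    exact h2
  obtain ⟨D', Ψ', hD', hΨ'iso, hc'⟩ := exists_prime_to_l_multiple hl k r hint D hD Ψ hΨiso hc
  have hD'0 : (D' : ZMod l) ≠ 0 := by
    rw [Ne, ZMod.natCast_eq_zero_iff]
    exact hD'
  refine ⟨C ((D' : ZMod l)⁻¹) * MvPolynomial.map (Int.castRingHom (ZMod l)) Ψ',
    (hΨ'iso.map _).C_mul _, ?_⟩
  intro n
  rw [map_mul, evQ_C, PowerSeries.coeff_C_mul, ← map_evQ, PowerSeries.coeff_map, eq_intCast]
  have h1 : ((PowerSeries.coeff n (evQ ℤ Ψ') : ℤ) : ZMod l) = (D' : ZMod l) * ((r n : ℚ) : ZMod l) := by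
    rw [← ratCast_zmod_natCast_mul D' (r n) (hint n), ← hc' n, Rat.cast_intCast]
  rw [h1, ← mul_assoc, inv_mul_cancel₀ hD'0, one_mul]

end

end Fermat.Agent.S16.SD
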