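/-
P-S16, block SD, sub-package SD-e (helper73): elementary symmetric functions of the translates of a
modular form (generalising Mathlib's `ModularForm.norm` / `ModularForm.trace`), the `q`-expansion
of an elementary symmetric function of finitely many functions, and the change of period in
`q`-expansions.  Mathlib only.
-/
import Mathlib

set_option autoImplicit false

namespace Fermat.Agent.S16.SD

open UpperHalfPlane SlashInvariantForm
open scoped ModularForm Topology Filter Manifold

section forms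

variable {𝒢 ℋ : Subgroup (GL (Fin 2) ℝ)} {F : Type*} (f : F) [FunLike F ℍ ℂ] {k : ℤ}

local notation "𝒬" => ℋ ⧸ (𝒢.subgroupOf ℋ)

/-- Reindexing a sum over `powersetCard` by a permutation of the ambient type. -/
theorem sum_powersetCard_univ_map_equiv {ι M : Type*} [Fintype ι] [DecidableEq ι]
    [AddCommMonoid M] (e : ι ≃ ι) (i : ℕ) (Φ : Finset ι → M) :
    ∑ t ∈ Finset.powersetCard i (Finset.univ : Finset ι), Φ (t.map e.toEmbedding) =
      ∑ t ∈ Finset.powersetCard i (Finset.univ : Finset ι), Φ t := by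
  refine Finset.sum_bij' (fun t _ => t.map e.toEmbedding) (fun t _ => t.map e.symm.toEmbedding)
    ?_ ?_ ?_ ?_ ?_
  · intro t ht
    rw [Finset.mem_powersetCard] at ht ⊢
    exact ⟨Finset.subset_univ _, by rw [Finset.card_map]; exact ht.2⟩
  · intro t ht
    rw [Finset.mem_powersetCard] at ht ⊢
    exact ⟨Finset.subset_univ _, by rw [Finset.card_map]; exact ht.2⟩
  · intro t _
    ext x
    simp
  · intro t _
    ext x
    simp
  · intro t _
    rfl

variable [SlashInvariantFormClass F 𝒢 k]

variable (ℋ) [𝒢.IsFiniteRelIndex ℋ]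

/-- The underlying function of the `i`-th elementary symmetric function of the translates. -/
noncomputable def esymmFun (i : ℕ) : ℍ → ℂ :=
  let := Fintype.ofFinite 𝒬
  ∑ t ∈ Finset.powersetCard i (Finset.univ : Finset 𝒬), ∏ q ∈ t, quotientFunc f q

theorem esymmFun_eq_sum [Fintype 𝒬] (i : ℕ) :
    esymmFun ℋ f i =
      ∑ t ∈ Finset.powersetCard i (Finset.univ : Finset 𝒬), ∏ q ∈ t, quotientFunc f q := by
  unfold esymmFun
  congr!

theorem esymmFun_apply [Fintype 𝒬] (i : ℕ) (τ : ℍ) :
    esymmFun ℋ f i τ =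
      ((Finset.univ : Finset 𝒬).val.map (fun q => quotientFunc f q τ)).esymm i := by
  rw [Finset.esymm_map_val, esymmFun_eq_sum]
  simp only [Finset.sum_apply, Finset.prod_apply]

variable {ℋ} in
theorem esymmFun_slash [ℋ.HasDetPlusMinusOne] (i : ℕ)
    {h : GL (Fin 2) ℝ} (hh : h ∈ ℋ) :
    esymmFun ℋ f i ∣[k * i] h = esymmFun ℋ f i := by
  classical
  let := Fintype.ofFinite 𝒬
  unfold esymmFun
  rw [SlashAction.sum_slash]
  have key : ∀ t ∈ Finset.powersetCard i (Finset.univ : Finset 𝒬),
      (∏ q ∈ t, quotientFunc f q) ∣[k * i] h =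
        ∏ q ∈ t.map (MulAction.toPerm (⟨h, hh⟩ : ℋ)⁻¹).toEmbedding, quotientFunc f q := by
    intro t ht
    rw [Finset.mem_powersetCard] at ht
    have hc : (k * (i : ℤ)) = k * (t.card : ℤ) := by rw [ht.2]
    rw [hc, ModularForm.prod_slash, Subgroup.HasDetPlusMinusOne.abs_det hh, one_zpow, one_smul,
      Finset.prod_map]
    refine Finset.prod_congr rfl fun q _ => ?_
    rw [quotientFunc_smul f hh]
    rfl
  rw [Finset.sum_congr rfl key]
  exact sum_powersetCard_univ_map_equiv (MulAction.toPerm (⟨h, hh⟩ : ℋ)⁻¹) i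
    (fun t => ∏ q ∈ t, quotientFunc f q)

/-- The `i`-th elementary symmetric function of the translates of a slash-invariant form,
as a slash-invariant form of weight `k * i`. -/
noncomputable def esymmSIF [ℋ.HasDetPlusMinusOne] (i : ℕ) : SlashInvariantForm ℋ (k * i) where
  toFun := esymmFun ℋ f i
  slash_action_eq' _ hh := esymmFun_slash f i hh

@[simp] theorem coe_esymmSIF [ℋ.HasDetPlusMinusOne] (i : ℕ) :
    ⇑(esymmSIF ℋ f i) = esymmFun ℋ f i := rfl

end forms

section modforms

variable {𝒢 : Subgroup (GL (Fin 2) ℝ)} (ℋ : Subgroup (GL (Fin 2) ℝ)) {F : Type*} (f : F)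
  [FunLike F ℍ ℂ] {k : ℤ} [𝒢.IsFiniteRelIndex ℋ] [ℋ.HasDetPlusMinusOne] [ModularFormClass F 𝒢 k]

local notation "𝒬" => ℋ ⧸ (𝒢.subgroupOf ℋ)

/-- The `i`-th elementary symmetric function of the translates of a modular form, as a modular
form of weight `k * i`. -/
noncomputable def esymmForm (i : ℕ) : ModularForm ℋ (k * i) where
  __ := esymmSIF ℋ f i
  holo' := by
    let := Fintype.ofFinite 𝒬
    change MDiff (esymmFun ℋ f i)
    unfold esymmFun
    exact .sum fun t _ => .prod (Quotient.forall.mpr fun ⟨r, hr⟩ _ ↦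
      (ModularForm.translate f r⁻¹).holo')
  bdd_at_cusps' h γ := by
    rintro rfl
    let := Fintype.ofFinite 𝒬
    change IsBoundedAtImInfty (esymmFun ℋ f i ∣[k * i] γ)
    unfold esymmFun
    rw [IsBoundedAtImInfty, Filter.BoundedAtFilter, SlashAction.sum_slash, Finset.sum_fn]
    refine .fun_sum fun t ht => ?_
    rw [Finset.mem_powersetCard] at ht
    have hc : (k * (i : ℤ)) = k * (t.card : ℤ) := by rw [ht.2]
    rw [hc, ModularForm.prod_slash]
    apply Asymptotics.IsBigO.const_smul_left
    rw [show (1 : ℍ → ℝ) = (fun x ↦ ∏ _i ∈ t, (1 : ℝ)) by ext; simp, Finset.prod_fn]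
    refine .finsetProd (Quotient.forall.mpr fun ⟨r, hr⟩ _ ↦
      (ModularForm.translate f _).bdd_at_cusps' ?_ γ rfl)
    simpa using h.of_isFiniteRelIndex_conj hr

@[simp] theorem coe_esymmForm (i : ℕ) : ⇑(esymmForm ℋ f i) = esymmFun ℋ f i := rfl

theorem esymmForm_apply [Fintype 𝒬] (i : ℕ) (τ : ℍ) :
    esymmForm ℋ f i τ =
      ((Finset.univ : Finset 𝒬).val.map (fun q => quotientFunc f q τ)).esymm i :=
  esymmFun_apply ℋ f i τ

end modforms


section qexp

open Function

variable {h : ℝ}

theorem cuspFunction_one' (h : ℝ) : cuspFunction h (1 : ℍ → ℂ) = 1 := by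
  ext q
  rcases eq_or_ne q 0 with rfl | hq
  · simpa [cuspFunction, Periodic.cuspFunction] using! tendsto_const_nhds.limUnder_eq
  · simp [cuspFunction, Periodic.cuspFunction_eq_of_nonzero h _ hq]

theorem cuspFunction_zero' (h : ℝ) : cuspFunction h (0 : ℍ → ℂ) = 0 := by
  ext q
  rcases eq_or_ne q 0 with rfl | hq
  · simpa [cuspFunction, Periodic.cuspFunction] using! tendsto_const_nhds.limUnder_eq
  · simp [cuspFunction, Periodic.cuspFunction_eq_of_nonzero h _ hq]

theorem analyticAt_cuspFunction_one (h : ℝ) : AnalyticAt ℂ (cuspFunction h (1 : ℍ → ℂ)) 0 := by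
  rw [cuspFunction_one']
  exact analyticAt_const

theorem analyticAt_cuspFunction_zero' (h : ℝ) : AnalyticAt ℂ (cuspFunction h (0 : ℍ → ℂ)) 0 := by
  rw [cuspFunction_zero']
  exact analyticAt_const

theorem analyticAt_cuspFunction_mul {f g : ℍ → ℂ} (hf : AnalyticAt ℂ (cuspFunction h f) 0)
    (hg : AnalyticAt ℂ (cuspFunction h g) 0) : AnalyticAt ℂ (cuspFunction h (f * g)) 0 := by
  rw [cuspFunction_mul hf.continuousAt hg.continuousAt]
  exact hf.mul hg

theorem analyticAt_cuspFunction_add {f g : ℍ → ℂ} (hf : AnalyticAt ℂ (cuspFunction h f) 0)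
    (hg : AnalyticAt ℂ (cuspFunction h g) 0) : AnalyticAt ℂ (cuspFunction h (f + g)) 0 := by
  rw [cuspFunction_add hf.continuousAt hg.continuousAt]
  exact hf.add hg

/-- Finite products: analyticity of the cusp function and multiplicativity of the `q`-expansion. -/
theorem qExpansion_prod {ι : Type*} (s : Finset ι) (g : ι → ℍ → ℂ)
    (hg : ∀ j ∈ s, AnalyticAt ℂ (cuspFunction h (g j)) 0) :
    AnalyticAt ℂ (cuspFunction h (∏ j ∈ s, g j)) 0 ∧
      qExpansion h (∏ j ∈ s, g j) = ∏ j ∈ s, qExpansion h (g j) := by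
  classical
  induction s using Finset.induction_on with
  | empty =>
    simp only [Finset.prod_empty]
    exact ⟨analyticAt_cuspFunction_one h, qExpansion_one h⟩
  | insert a t ha IH =>
    have hga := hg a (Finset.mem_insert_self a t)
    obtain ⟨h1, h2⟩ := IH fun j hj => hg j (Finset.mem_insert_of_mem hj)
    rw [Finset.prod_insert ha, Finset.prod_insert ha]
    exact ⟨analyticAt_cuspFunction_mul hga h1, by rw [qExpansion_mul hga h1, h2]⟩

/-- Finite sums: analyticity of the cusp function and additivity of the `q`-expansion. -/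
theorem qExpansion_sum {ι : Type*} (s : Finset ι) (g : ι → ℍ → ℂ)
    (hg : ∀ j ∈ s, AnalyticAt ℂ (cuspFunction h (g j)) 0) :
    AnalyticAt ℂ (cuspFunction h (∑ j ∈ s, g j)) 0 ∧
      qExpansion h (∑ j ∈ s, g j) = ∑ j ∈ s, qExpansion h (g j) := by
  classical
  induction s using Finset.induction_on with
  | empty =>
    simp only [Finset.sum_empty]
    exact ⟨analyticAt_cuspFunction_zero' h, qExpansion_zero h⟩
  | insert a t ha IH =>
    have hga := hg a (Finset.mem_insert_self a t)
    obtain ⟨h1, h2⟩ := IH fun j hj => hg j (Finset.mem_insert_of_mem hj)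
    rw [Finset.sum_insert ha, Finset.sum_insert ha]
    exact ⟨analyticAt_cuspFunction_add hga h1, by rw [qExpansion_add hga h1, h2]⟩

/-- The `q`-expansion of an elementary symmetric function of finitely many functions, in the
`Finset.powersetCard` form. -/
theorem qExpansion_sum_powersetCard {ι : Type*} (s : Finset ι) (g : ι → ℍ → ℂ)
    (hg : ∀ j ∈ s, AnalyticAt ℂ (cuspFunction h (g j)) 0) (i : ℕ) :
    AnalyticAt ℂ (cuspFunction h (∑ t ∈ s.powersetCard i, ∏ j ∈ t, g j)) 0 ∧
      qExpansion h (∑ t ∈ s.powersetCard i, ∏ j ∈ t, g j) =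
        ∑ t ∈ s.powersetCard i, ∏ j ∈ t, qExpansion h (g j) := by
  have hsub : ∀ t ∈ s.powersetCard i, ∀ j ∈ t, AnalyticAt ℂ (cuspFunction h (g j)) 0 :=
    fun t ht j hj => hg j ((Finset.mem_powersetCard.mp ht).1 hj)
  obtain ⟨h1, h2⟩ := qExpansion_sum (h := h) (s.powersetCard i) (fun t => ∏ j ∈ t, g j)
    fun t ht => (qExpansion_prod t g (hsub t ht)).1
  refine ⟨h1, h2.trans (Finset.sum_congr rfl fun t ht => ?_)⟩
  exact (qExpansion_prod t g (hsub t ht)).2

/-- **SD-e (2)**: the `q`-expansion of the `i`-th elementary symmetric function of finitely many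
functions whose cusp functions are analytic at `0` is the `i`-th elementary symmetric function of
their `q`-expansions. -/
theorem qExpansion_esymm {ι : Type*} (s : Finset ι) (g : ι → ℍ → ℂ)
    (hg : ∀ j ∈ s, AnalyticAt ℂ (cuspFunction h (g j)) 0) (i : ℕ) :
    qExpansion h (fun z => (s.val.map (fun j => g j z)).esymm i) =
      (s.val.map (fun j => qExpansion h (g j))).esymm i := by
  have hfun : (fun z => (s.val.map (fun j => g j z)).esymm i) =
      ∑ t ∈ s.powersetCard i, ∏ j ∈ t, g j := by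
    funext z
    rw [Finset.esymm_map_val]
    simp only [Finset.sum_apply, Finset.prod_apply]
  rw [hfun, Finset.esymm_map_val]
  exact (qExpansion_sum_powersetCard s g hg i).2

theorem analyticAt_cuspFunction_esymm {ι : Type*} (s : Finset ι) (g : ι → ℍ → ℂ)
    (hg : ∀ j ∈ s, AnalyticAt ℂ (cuspFunction h (g j)) 0) (i : ℕ) :
    AnalyticAt ℂ (cuspFunction h (fun z => (s.val.map (fun j => g j z)).esymm i)) 0 := by
  have hfun : (fun z => (s.val.map (fun j => g j z)).esymm i) =
      ∑ t ∈ s.powersetCard i, ∏ j ∈ t, g j := by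
    funext z
    rw [Finset.esymm_map_val]
    simp only [Finset.sum_apply, Finset.prod_apply]
  rw [hfun]
  exact (qExpansion_sum_powersetCard s g hg i).1

end qexp

section qexpForms

variable {𝒢 : Subgroup (GL (Fin 2) ℝ)} (ℋ : Subgroup (GL (Fin 2) ℝ)) {F : Type*} (f : F)
  [FunLike F ℍ ℂ] {k : ℤ} [𝒢.IsFiniteRelIndex ℋ] [SlashInvariantFormClass F 𝒢 k] {h : ℝ}

local notation "𝒬" => ℋ ⧸ (𝒢.subgroupOf ℋ)

/-- The `q`-expansion (for any period `h`) of the elementary symmetric function of the translates,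
in terms of the `q`-expansions of the translates. -/
theorem qExpansion_esymmFun [Fintype 𝒬] (i : ℕ)
    (hg : ∀ q : 𝒬, AnalyticAt ℂ (cuspFunction h (quotientFunc f q)) 0) :
    qExpansion h (esymmFun ℋ f i) =
      ((Finset.univ : Finset 𝒬).val.map (fun q => qExpansion h (quotientFunc f q))).esymm i := by
  rw [esymmFun_eq_sum, Finset.esymm_map_val]
  exact (qExpansion_sum_powersetCard Finset.univ (fun q : 𝒬 => quotientFunc f q)
    (fun q _ => hg q) i).2

end qexpForms

section period

open Function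

/-- `q_1 = q_N ^ N`. -/
theorem qParam_nat_pow (N : ℕ) (hN : 0 < N) (z : ℂ) :
    Periodic.qParam (N : ℝ) z ^ N = Periodic.qParam 1 z := by
  have hN0 : (N : ℂ) ≠ 0 := by exact_mod_cast hN.ne'
  simp only [Periodic.qParam, ← Complex.exp_nat_mul]
  congr 1
  push_cast
  field_simp

/-- The family of coefficients of the `q_N`-expansion of a `1`-periodic function. -/
noncomputable def spreadCoeff (N : ℕ) (a : ℕ → ℂ) (m : ℕ) : ℂ := if N ∣ m then a (m / N) else 0

theorem hasSum_spreadCoeff {f : ℍ → ℂ} (N : ℕ) (hN : 0 < N)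
    (hfper : Periodic (f ∘ ofComplex) 1) (hfhol : MDiff f) (hfbdd : IsBoundedAtImInfty f)
    (τ : ℍ) :
    HasSum (fun m : ℕ ↦ spreadCoeff N (fun n => (qExpansion 1 f).coeff n) m •
      Periodic.qParam (N : ℝ) τ ^ m) (f τ) := by
  have h1 := hasSum_qExpansion (h := 1) one_pos hfper hfhol hfbdd τ
  have hinj : Function.Injective (fun n : ℕ => N * n) := fun a b hab =>
    Nat.eq_of_mul_eq_mul_left hN hab
  rw [← hinj.hasSum_iff]
  · convert h1 using 1
    funext n
    simp only [Function.comp_apply, spreadCoeff, dvd_mul_right, if_true,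
      Nat.mul_div_cancel_left n hN]
    rw [pow_mul, qParam_nat_pow N hN]
  · intro m hm
    have : ¬ N ∣ m := fun ⟨n, hn⟩ => hm ⟨n, hn.symm⟩
    simp [spreadCoeff, this]

/-- Uniqueness of `q`-expansion coefficients, for plain functions on the upper half plane. -/
theorem qExpansion_coeff_unique_fun {h : ℝ} {f : ℍ → ℂ} {c : ℕ → ℂ} (hh : 0 < h)
    (hfanalytic : AnalyticAt ℂ (cuspFunction h f) 0)
    (hf : ∀ τ : ℍ, HasSum (fun m ↦ c m • Periodic.qParam h τ ^ m) (f τ)) (m : ℕ) :
    c m = (qExpansion h f).coeff m := by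
  have h1 := (hasFPowerSeriesOnBall_cuspFunction hh hfanalytic hf).hasFPowerSeriesAt
  have h2 := hfanalytic.hasFPowerSeriesAt
  have h3 := congr_arg (FormalMultilinearSeries.coeff · m) (h1.eq_formalMultilinearSeries h2)
  simp only [FormalMultilinearSeries.coeff_ofScalars] at h3
  rw [h3, qExpansion_coeff, div_eq_mul_inv, mul_comm]

/-- **SD-e (3)**: change of period.  For a `1`-periodic holomorphic function bounded at `i∞`, the
`q`-expansion with respect to the period `N` is obtained from the one with respect to the period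
`1` by spreading out the coefficients. -/
theorem qExpansion_nat_coeff {f : ℍ → ℂ} (N : ℕ) (hN : 0 < N)
    (hfper : Periodic (f ∘ ofComplex) 1) (hfhol : MDiff f) (hfbdd : IsBoundedAtImInfty f)
    (m : ℕ) :
    (qExpansion (N : ℝ) f).coeff m = if N ∣ m then (qExpansion 1 f).coeff (m / N) else 0 := by
  have hNr : (0 : ℝ) < N := by exact_mod_cast hN
  have hperN : Periodic (f ∘ ofComplex) (N : ℝ) := by
    have := hfper.nat_mul N
    simpa using this
  have han := analyticAt_cuspFunction_zero hNr hperN hfhol hfbdd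
  exact (qExpansion_coeff_unique_fun hNr han
    (hasSum_spreadCoeff N hN hfper hfhol hfbdd) m).symm

theorem qExpansion_nat_coeff_mul {f : ℍ → ℂ} (N : ℕ) (hN : 0 < N)
    (hfper : Periodic (f ∘ ofComplex) 1) (hfhol : MDiff f) (hfbdd : IsBoundedAtImInfty f)
    (n : ℕ) :
    (qExpansion (N : ℝ) f).coeff (N * n) = (qExpansion 1 f).coeff n := by
  rw [qExpansion_nat_coeff N hN hfper hfhol hfbdd, if_pos (dvd_mul_right N n),
    Nat.mul_div_cancel_left n hN]

theorem qExpansion_nat_coeff_of_not_dvd {f : ℍ → ℂ} (N : ℕ) (hN : 0 < N)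
    (hfper : Periodic (f ∘ ofComplex) 1) (hfhol : MDiff f) (hfbdd : IsBoundedAtImInfty f)
    {m : ℕ} (hm : ¬ N ∣ m) :
    (qExpansion (N : ℝ) f).coeff m = 0 := by
  rw [qExpansion_nat_coeff N hN hfper hfhol hfbdd, if_neg hm]

end period

end Fermat.Agent.S16.SD
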