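/-
helper57 (P-S16, WP-SD-HASSE, task 294; owner of block SD = helper86).
`E_{l-1} ≡ 1 mod l` for a prime `l ≥ 5`, from the von Staudt–Clausen theorem of Mathlib:

* `hasse_bernoulli_core` : `2 (l - 1) / B_{l-1} = l * a / b` with integers `a`, `b`, `l ∤ b`
  (any odd prime `l`);
* `hasse_num_den_of_eq` : a rational `l * A / b` with `l ∤ b` has `l ∤ den` and `l ∣ num`;
* `hasse_qExpansion` : the `q`-expansion coefficients of `E_{l-1}` are rational numbers `r n` with
  `r 0 = 1`, `l ∤ (r n).den` for all `n`, and `l ∣ (r n).num` for `n ≥ 1`.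
-/
import Mathlib

set_option autoImplicit false

namespace Fermat.Agent.S16.SD

open Finset

/-- A finite sum of reciprocals of nonzero naturals, multiplied by their product, is an integer. -/
theorem hasse_prod_mul_sum_inv (S : Finset ℕ) (hS : ∀ p ∈ S, p ≠ 0) :
    ((∏ p ∈ S, p : ℕ) : ℚ) * ∑ p ∈ S, (1 : ℚ) / p =
      ((∑ p ∈ S, ∏ p' ∈ S.erase p, p' : ℕ) : ℚ) := by
  rw [Finset.mul_sum]
  push_cast
  refine Finset.sum_congr rfl fun p hp => ?_
  have hp0 : (p : ℚ) ≠ 0 := by exact_mod_cast hS p hp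
  rw [← Finset.prod_erase_mul S (fun x : ℕ => (x : ℚ)) hp]
  field_simp

/-- **von Staudt–Clausen at the prime `l`**: `2 (l - 1) / B_{l-1} = l * a / b` with integers `a`,
`b` and `l ∤ b`. -/
theorem hasse_bernoulli_core (l : ℕ) [hl : Fact l.Prime] (hl3 : 3 ≤ l) :
    ∃ a b : ℤ, ¬ (l : ℤ) ∣ b ∧
      2 * ((l - 1 : ℕ) : ℚ) / bernoulli (l - 1) = (l : ℚ) * a / b := by
  have hodd : Odd l := hl.out.odd_of_ne_two (by omega)
  obtain ⟨j, hj⟩ : ∃ j, l - 1 = 2 * j := by
    obtain ⟨i, hi⟩ := hodd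
    exact ⟨i, by omega⟩
  obtain ⟨N, hN⟩ := Bernoulli.vonStaudt_clausen j
  rw [← hj] at hN
  set S : Finset ℕ := (range (l - 1 + 2)).filter (fun p => p.Prime ∧ (p - 1) ∣ l - 1) with hS
  have hlS : l ∈ S := by
    rw [hS, mem_filter, mem_range]
    exact ⟨by omega, hl.out, dvd_refl _⟩
  set S' := S.erase l with hS'
  have hS'prime : ∀ p ∈ S', p.Prime ∧ p ≠ l := by
    intro p hp
    rw [hS', mem_erase, hS, mem_filter] at hp
    exact ⟨hp.2.2.1, hp.1⟩
  set D : ℕ := ∏ p ∈ S', p with hD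
  set t : ℕ := ∑ p ∈ S', ∏ p' ∈ S'.erase p, p' with ht
  have hDt : (D : ℚ) * ∑ p ∈ S', (1 : ℚ) / p = (t : ℚ) :=
    hasse_prod_mul_sum_inv S' (fun p hp => (hS'prime p hp).1.ne_zero)
  have hlD : ¬ l ∣ D := by
    intro h
    obtain ⟨p, hp, hlp⟩ := (Prime.dvd_finsetProd_iff (Nat.prime_iff.1 hl.out) _).1 h
    have := (Nat.prime_dvd_prime_iff_eq hl.out (hS'prime p hp).1).1 hlp
    exact (hS'prime p hp).2 this.symm
  have hsplit : ∑ p ∈ S, (1 : ℚ) / p = 1 / l + ∑ p ∈ S', (1 : ℚ) / p :=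
    (Finset.add_sum_erase S (fun p : ℕ => (1 : ℚ) / p) hlS).symm
  rw [hsplit] at hN
  have hl0 : (l : ℚ) ≠ 0 := by exact_mod_cast hl.out.ne_zero
  have hD0 : (D : ℚ) ≠ 0 := by
    have : D ≠ 0 := fun h => hlD (h ▸ dvd_zero l)
    exact_mod_cast this
  set a' : ℤ := (l : ℤ) * D * N - D - l * t with ha'
  have hkey : (l : ℚ) * D * bernoulli (l - 1) = (a' : ℚ) := by
    have h1 : bernoulli (l - 1) = (N : ℚ) - 1 / l - ∑ p ∈ S', (1 : ℚ) / p := by
      linarith
    rw [h1, ha']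
    push_cast
    have h2 : (l : ℚ) * D * ∑ p ∈ S', (1 : ℚ) / p = l * t := by
      rw [mul_assoc, hDt]
    field_simp
    linear_combination (-1 : ℚ) * h2
  have hla' : ¬ (l : ℤ) ∣ a' := by
    intro h
    have h3 : (l : ℤ) ∣ (D : ℤ) := by
      have h4 : (D : ℤ) = (l : ℤ) * (D * N - t) - a' := by rw [ha']; ring
      rw [h4]
      exact dvd_sub (dvd_mul_right _ _) h
    exact hlD (by exact_mod_cast h3)
  have ha'0 : (a' : ℚ) ≠ 0 := by
    intro h
    apply hla'
    have : a' = 0 := by exact_mod_cast h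
    rw [this]
    exact dvd_zero _
  have hB0 : bernoulli (l - 1) ≠ 0 := by
    intro h
    rw [h, mul_zero] at hkey
    exact ha'0 hkey.symm
  refine ⟨2 * ((l - 1 : ℕ) : ℤ) * D, a', hla', ?_⟩
  rw [div_eq_div_iff hB0 ha'0, ← hkey]
  push_cast
  ring

/-- A rational number of the form `l * A / b` with `l ∤ b` has denominator prime to `l` and
numerator divisible by `l`. -/
theorem hasse_num_den_of_eq {l : ℕ} (hl : l.Prime) {x : ℚ} {A b : ℤ} (hb : ¬ (l : ℤ) ∣ b)
    (hx : x = (l : ℚ) * A / b) : ¬ l ∣ x.den ∧ (l : ℤ) ∣ x.num := by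
  have hb0 : b ≠ 0 := fun h => hb (h ▸ dvd_zero _)
  have hbq : (b : ℚ) ≠ 0 := by exact_mod_cast hb0
  constructor
  · intro h
    apply hb
    have h1 : ((x.den : ℕ) : ℤ) ∣ b := by
      have h2 : x = Rat.divInt ((l : ℤ) * A) b := by
        rw [hx, Rat.divInt_eq_div]; push_cast; ring
      rw [h2]
      exact Rat.den_dvd _ _
    exact dvd_trans (by exact_mod_cast h) h1
  · have h1 : (x.num : ℚ) * b = (l : ℚ) * A * x.den := by
      calc (x.num : ℚ) * b = x * x.den * b := by rw [Rat.mul_den_eq_num]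
        _ = ((l : ℚ) * A / b) * x.den * b := by rw [← hx]
        _ = (l : ℚ) * A * x.den := by field_simp
    have h3 : x.num * b = (l : ℤ) * A * x.den := by exact_mod_cast h1
    have h4 : (l : ℤ) ∣ x.num * b := ⟨A * x.den, by rw [h3]; ring⟩
    exact ((Nat.prime_iff_prime_int.1 hl).dvd_or_dvd h4).resolve_right hb

open ModularForm EisensteinSeries in
/-- **`E_{l-1} ≡ 1 mod l`**: for a prime `l ≥ 5` the normalised Eisenstein series of weight `l - 1`
has rational `l`-integral `q`-expansion coefficients, constant term `1`, and all higher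
coefficients divisible by `l`. -/
theorem hasse_qExpansion (l : ℕ) [Fact l.Prime] (hl : 5 ≤ l) :
    ∃ r : ℕ → ℚ,
      (∀ n, (UpperHalfPlane.qExpansion 1
        (ModularForm.E (k := l - 1) (by omega))).coeff n = (r n : ℂ)) ∧
      r 0 = 1 ∧ (∀ n, ¬ l ∣ (r n).den) ∧ (∀ n, 1 ≤ n → (l : ℤ) ∣ (r n).num) := by
  have hlp : l.Prime := Fact.out
  obtain ⟨a, b, hb, hab⟩ := hasse_bernoulli_core l (by omega)
  have hk : 3 ≤ l - 1 := by omega
  have hk2 : Even (l - 1) := by
    have hodd : Odd l := hlp.odd_of_ne_two (by omega)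
    obtain ⟨i, hi⟩ := hodd
    exact ⟨i, by omega⟩
  refine ⟨fun n => if n = 0 then 1 else
    -((l : ℚ) * a / b) * (ArithmeticFunction.sigma (l - 1 - 1) n : ℚ), ?_, by simp, ?_, ?_⟩
  · intro n
    rw [E_qExpansion_coeff hk hk2 n]
    by_cases hn : n = 0
    · simp [hn]
    · rw [if_neg hn]
      simp only [if_neg hn]
      have h1 := congrArg (fun x : ℚ => (x : ℂ)) hab
      push_cast at h1 ⊢
      rw [← h1]
  · intro n
    by_cases hn : n = 0
    · simp only [hn, if_true, Rat.den_one, Nat.dvd_one]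
      exact hlp.ne_one
    · simp only [if_neg hn]
      refine (hasse_num_den_of_eq hlp hb (A := -a * (ArithmeticFunction.sigma (l - 1 - 1) n : ℤ))
        ?_).1
      push_cast
      ring
  · intro n hn1
    have hn : n ≠ 0 := by omega
    simp only [if_neg hn]
    refine (hasse_num_den_of_eq hlp hb (A := -a * (ArithmeticFunction.sigma (l - 1 - 1) n : ℤ))
      ?_).2
    push_cast
    ring

end Fermat.Agent.S16.SD
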