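import Mathlib
import Fermat.Agent.S16.SD.EvalQ

set_option autoImplicit false

/-!
# The Hasse polynomial `Ã` is squarefree

Part of the Swinnerton-Dyer package (WP-SD of P-S16).  Over `𝔽 = ZMod l`, `l ≥ 5`, let `Ã` be an
isobaric polynomial of weight `l - 1` with `Ã(Q, R) = 1` in `𝔽[[q]]` (the reduction of
`E_{l-1}`).  With `B̃ := ∂Ã` one has `B̃(Q,R) = P`, `∂B̃ = -Q Ã` and `Ã` has no repeated factor.
-/

namespace Fermat.Agent.S16.SD

open MvPolynomial

noncomputable section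

/-- The data of a Hasse polynomial modulo `l`. -/
structure HasseData (l : ℕ) [Fact l.Prime] where
  five_le : 5 ≤ l
  ram : RamanujanZ
  /-- the Hasse polynomial -/
  A : MvPolynomial (Fin 2) (ZMod l)
  isIso : IsIso A (l - 1)
  evQ_eq : evQ (ZMod l) A = 1

namespace HasseData

variable {l : ℕ} [Fact l.Prime] (H : HasseData l)

theorem natCast_pred : ((l - 1 : ℕ) : ZMod l) = -1 := by
  have h1 : 1 ≤ l := (Fact.out : l.Prime).one_lt.le
  rw [Nat.cast_sub h1]
  simp

theorem natCast_succ : ((l + 1 : ℕ) : ZMod l) = 1 := by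
  simp

include H in
theorem c1728_ne_zero : (1728 : ZMod l) ≠ 0 := by
  have hl := H.five_le
  have hp : l.Prime := Fact.out
  intro h
  have h1 : ((1728 : ℕ) : ZMod l) = 0 := by exact_mod_cast h
  rw [ZMod.natCast_eq_zero_iff] at h1
  have h2 : l ∣ 2 ^ 6 * 3 ^ 3 := by
    norm_num
    exact h1
  rcases (Nat.Prime.dvd_mul hp).1 h2 with h3 | h3
  · have := Nat.le_of_dvd (by norm_num) (hp.dvd_of_dvd_pow h3)
    omega
  · have := Nat.le_of_dvd (by norm_num) (hp.dvd_of_dvd_pow h3)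
    omega

theorem A_ne_zero : H.A ≠ 0 := by
  intro h
  have := H.evQ_eq
  rw [h, map_zero] at this
  exact zero_ne_one this

/-- The polynomial `B̃ = ∂Ã`. -/
def B : MvPolynomial (Fin 2) (ZMod l) := ramD H.A

theorem isIso_B : IsIso H.B (l + 1) := by
  have h := H.isIso.ramD
  have hl := H.five_le
  exact h.weight_cast (by omega)

theorem evQ_B : evQ (ZMod l) H.B = Pq (ZMod l) := by
  have h := H.isIso.theta_evQ H.ram
  rw [H.evQ_eq, theta_one, mul_zero, mul_one] at h
  have h2 : ((l - 1 : ℕ) : PowerSeries (ZMod l)) = -1 := by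
    rw [← map_natCast (PowerSeries.C (R := ZMod l)), natCast_pred, map_neg, map_one]
  rw [h2] at h
  have h3 : evQ (ZMod l) H.B = evQ (ZMod l) (ramD H.A) := rfl
  rw [h3]
  linear_combination -h

theorem ramD_B : ramD H.B = -(X 0 * H.A) := by
  have h := H.isIso_B.theta_evQ H.ram
  rw [H.evQ_B] at h
  have h2 : ((l + 1 : ℕ) : PowerSeries (ZMod l)) = 1 := by
    rw [← map_natCast (PowerSeries.C (R := ZMod l)), natCast_succ, map_one]
  rw [h2] at h
  have h3 := theta_Pq (A := ZMod l) H.ram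
  have h4 : evQ (ZMod l) (ramD H.B + X 0 * H.A) = 0 := by
    rw [map_add, map_mul, H.evQ_eq, evQ_X, qr_zero]
    linear_combination h3 - h
  have hl := H.five_le
  have h5 : IsIso (ramD H.B + X 0 * H.A) (l + 3) := by
    apply IsIso.add
    · exact H.isIso_B.ramD.weight_cast (by omega)
    · exact ((isIso_X (0 : Fin 2)).mul H.isIso).weight_cast (by simp [wt]; omega)
  have h6 := IsIso.eq_zero_of_evQ_eq_zero H.c1728_ne_zero _ h5 h4
  linear_combination h6

/-- **The Hasse polynomial has no repeated irreducible factor.** -/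
theorem not_sq_dvd (φ : MvPolynomial (Fin 2) (ZMod l)) (hφ : Irreducible φ) : ¬ φ * φ ∣ H.A := by
  intro hdvd
  have hp : l.Prime := Fact.out
  have hl := H.five_le
  obtain ⟨n, ψ, hψ, hA⟩ := WfDvdMonoid.max_power_factor H.A_ne_zero hφ
  have hn : 2 ≤ n := by
    by_contra hn
    push Not at hn
    interval_cases n
    · rw [pow_zero, one_mul] at hA
      rw [hA] at hdvd
      exact hψ (dvd_trans (dvd_mul_right φ φ) hdvd)
    · rw [pow_one] at hA
      rw [hA] at hdvd
      exact hψ ((mul_dvd_mul_iff_left hφ.ne_zero).1 hdvd)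
  obtain ⟨w, rfl⟩ : ∃ w, n = w + 2 := ⟨n - 2, by omega⟩
  have hφA : φ ∣ H.A := ⟨φ ^ (w + 1) * ψ, by rw [hA]; ring⟩
  have hφiso : IsIso φ (wdeg φ) := H.isIso.of_dvd H.A_ne_zero hφA
  have hψiso : IsIso ψ (wdeg ψ) := H.isIso.of_dvd H.A_ne_zero ⟨φ ^ (w + 2), by rw [hA]; ring⟩
  have hwt : (w + 2) * wdeg φ + wdeg ψ = l - 1 := by
    have h1 : IsIso (φ ^ (w + 2) * ψ) ((w + 2) * wdeg φ + wdeg ψ) := (hφiso.pow _).mul hψiso
    rw [← hA] at h1
    exact h1.weight_unique H.A_ne_zero H.isIso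
  have ha0 : wdeg φ ≠ 0 := by
    intro h0
    obtain ⟨c, hc⟩ := wdeg_eq_zero_iff.1 h0
    have hc0 : c ≠ 0 := by
      rintro rfl
      exact hφ.ne_zero (by simpa using hc)
    apply hφ.not_isUnit
    rw [hc]
    exact (isUnit_iff_ne_zero.2 hc0).map C
  have ha4 : 4 ≤ wdeg φ := hφiso.four_le hφ.ne_zero ha0
  have hb1 : (w + 2) * 4 ≤ (w + 2) * wdeg φ := Nat.mul_le_mul_left _ ha4
  have hb2 : wdeg φ ≤ (w + 2) * wdeg φ := Nat.le_mul_of_pos_left _ (by omega)
  have hb3 : w + 2 < l ∧ wdeg φ < l := by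
    generalize (w + 2) * wdeg φ = T at *
    omega
  -- derivative computations
  have hB : H.B = φ ^ (w + 1) * (((w + 2 : ℕ) : MvPolynomial (Fin 2) (ZMod l)) * ramD φ * ψ +
      φ * ramD ψ) := by
    unfold B
    rw [hA, Derivation.leibniz, Derivation.leibniz_pow]
    simp only [smul_eq_mul, nsmul_eq_mul, show w + 2 - 1 = w + 1 by omega]
    ring
  have hdB : ramD H.B = ((w + 1 : ℕ) : MvPolynomial (Fin 2) (ZMod l)) * φ ^ w * ramD φ *
        (((w + 2 : ℕ) : MvPolynomial (Fin 2) (ZMod l)) * ramD φ * ψ + φ * ramD ψ) +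
      φ ^ (w + 1) * ramD (((w + 2 : ℕ) : MvPolynomial (Fin 2) (ZMod l)) * ramD φ * ψ +
        φ * ramD ψ) := by
    rw [hB, Derivation.leibniz, Derivation.leibniz_pow]
    simp only [smul_eq_mul, nsmul_eq_mul, Nat.add_sub_cancel]
    ring
  have key : φ ^ w * (((w + 1 : ℕ) : MvPolynomial (Fin 2) (ZMod l)) * ramD φ *
        (((w + 2 : ℕ) : MvPolynomial (Fin 2) (ZMod l)) * ramD φ * ψ + φ * ramD ψ) +
      φ * ramD (((w + 2 : ℕ) : MvPolynomial (Fin 2) (ZMod l)) * ramD φ * ψ + φ * ramD ψ) +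
      X 0 * φ ^ 2 * ψ) = 0 := by
    have h1 := H.ramD_B
    rw [hdB, hA] at h1
    linear_combination h1
  have key2 := (mul_eq_zero.1 key).resolve_left (pow_ne_zero _ hφ.ne_zero)
  have hdiv : φ ∣ (((w + 1 : ℕ) : MvPolynomial (Fin 2) (ZMod l)) *
      ((w + 2 : ℕ) : MvPolynomial (Fin 2) (ZMod l))) * (ramD φ * ramD φ * ψ) := by
    refine ⟨-(ramD (((w + 2 : ℕ) : MvPolynomial (Fin 2) (ZMod l)) * ramD φ * ψ + φ * ramD ψ) +
      X 0 * φ * ψ + ((w + 1 : ℕ) : MvPolynomial (Fin 2) (ZMod l)) * ramD φ * ramD ψ), ?_⟩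
    linear_combination key2
  have hunit : IsUnit (((w + 1 : ℕ) : MvPolynomial (Fin 2) (ZMod l)) *
      ((w + 2 : ℕ) : MvPolynomial (Fin 2) (ZMod l))) := by
    have h1 : ((w + 1 : ℕ) : ZMod l) ≠ 0 := by
      rw [Ne, ZMod.natCast_eq_zero_iff]
      intro h
      have := Nat.le_of_dvd (by omega) h
      omega
    have h2 : ((w + 2 : ℕ) : ZMod l) ≠ 0 := by
      rw [Ne, ZMod.natCast_eq_zero_iff]
      intro h
      have := Nat.le_of_dvd (by omega) h
      omega
    rw [← map_natCast (C (R := ZMod l) (σ := Fin 2)), ← map_natCast (C (R := ZMod l) (σ := Fin 2)),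
      ← map_mul]
    exact (isUnit_iff_ne_zero.2 (mul_ne_zero h1 h2)).map C
  have hdiv2 : φ ∣ ramD φ * ramD φ * ψ := (hunit.dvd_mul_left).1 hdiv
  have hprime : Prime φ := hφ.prime
  have hdφ : φ ∣ ramD φ := by
    rcases hprime.dvd_or_dvd hdiv2 with h1 | h1
    · rcases hprime.dvd_or_dvd h1 with h2 | h2 <;> exact h2
    · exact absurd h1 hψ
  have hdφ0 : ramD φ = 0 := by
    by_contra hne
    obtain ⟨L, hL⟩ := hdφ
    have h1 : IsIso (φ * L) (wdeg φ + 2) := hL ▸ hφiso.ramD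
    have h2 : IsIso L (wdeg L) := h1.of_mul_right (hL ▸ hne)
    have h3 : IsIso (φ * L) (wdeg φ + wdeg L) := hφiso.mul h2
    have h4 : wdeg φ + wdeg L = wdeg φ + 2 := h3.weight_unique (hL ▸ hne) h1
    have h5 : wdeg L = 2 := by omega
    rw [h5] at h2
    rw [hL, h2.eq_zero_of_weight_two, mul_zero] at hne
    exact hne rfl
  -- the q-expansion argument
  have hth := hφiso.theta_evQ H.ram
  rw [hdφ0, map_zero, add_zero] at hth
  have hcc := congrArg PowerSeries.constantCoeff hth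
  rw [map_mul, constantCoeff_theta, mul_zero, map_mul, map_mul, constantCoeff_Pq, mul_one,
    map_natCast] at hcc
  have hu0 : PowerSeries.constantCoeff (evQ (ZMod l) φ) ≠ 0 := by
    intro h0
    have h1 := congrArg (fun f => PowerSeries.constantCoeff (evQ (ZMod l) f)) hA
    simp only [H.evQ_eq, map_one, map_mul, map_pow, h0] at h1
    rw [zero_pow (by omega), zero_mul] at h1
    exact one_ne_zero h1
  have ha : ((wdeg φ : ℕ) : ZMod l) = 0 := by
    rcases mul_eq_zero.1 hcc.symm with h | h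
    · exact h
    · exact absurd h hu0
  rw [ZMod.natCast_eq_zero_iff] at ha
  have := Nat.le_of_dvd (by omega) ha
  omega

theorem squarefree_A : Squarefree H.A :=
  (squarefree_iff_irreducible_sq_not_dvd_of_ne_zero H.A_ne_zero).2 H.not_sq_dvd

end HasseData

end

end Fermat.Agent.S16.SD
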