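import Mathlib
import Fermat.Agent.S16.SD.Squarefree

set_option autoImplicit false

/-!
# The kernel of `𝔽_l[Q,R] → 𝔽_l[[q]]` is stable under the twists

Part of the Swinnerton-Dyer package (WP-SD of P-S16).  Given a Hasse polynomial `Ã` modulo `l`
(`HasseData l`), the kernel `𝔞` of `evQ : 𝔽_l[Q,R] → 𝔽_l[[q]]` is a principal prime ideal generated
by an irreducible factor `ϖ` of `Ã - 1` (lying over: `𝔽_l[Q,R]` is integral over the subalgebra of
twist invariants, on which `𝔞` is generated by `Ã - 1`), and `ϖ` is associated to all its twists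
because `Ã` is squarefree.  Consequence: an isobaric polynomial whose q-expansion is a nonzero
constant has weight divisible by `l - 1`.
-/

namespace Fermat.Agent.S16.SD

open MvPolynomial

noncomputable section

namespace HasseData

variable {l : ℕ} [Fact l.Prime] (H : HasseData l)

/-- The polynomial `π = Ã - 1`. -/
def pi : MvPolynomial (Fin 2) (ZMod l) := H.A - 1

theorem evQ_pi : evQ (ZMod l) H.pi = 0 := by
  rw [pi, map_sub, H.evQ_eq, map_one, sub_self]

include H in
theorem l_sub_one_pos : 0 < l - 1 := by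
  have := H.five_le
  omega

theorem pi_ne_zero : H.pi ≠ 0 := by
  intro h
  have h1 : H.A = 1 := by
    rw [pi, sub_eq_zero] at h
    exact h
  have h2 : IsIso (1 : MvPolynomial (Fin 2) (ZMod l)) (l - 1) := h1 ▸ H.isIso
  have h3 := h2.weight_unique one_ne_zero isIso_one
  have := H.l_sub_one_pos
  omega

theorem twist_A (u : (ZMod l)ˣ) : twist (u : ZMod l) H.A = H.A := by
  rw [H.isIso.twist_eq, ← Units.val_pow_eq_pow_val, ZMod.units_pow_card_sub_one_eq_one, Units.val_one,
    map_one, one_mul]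

theorem twist_pi (u : (ZMod l)ˣ) : twist (u : ZMod l) H.pi = H.pi := by
  rw [pi, map_sub, H.twist_A, map_one]

/-- Components of weight not divisible by `l - 1` of a twist-invariant polynomial vanish. -/
theorem coeff_evT_eq_zero_of_twist_fixed {Ψ : MvPolynomial (Fin 2) (ZMod l)}
    (hfix : ∀ u : (ZMod l)ˣ, twist (u : ZMod l) Ψ = Ψ) (m : ℕ) (hm : ¬ (l - 1) ∣ m) :
    (evT Ψ).coeff m = 0 := by
  obtain ⟨g, hg⟩ := IsCyclic.exists_generator (α := (ZMod l)ˣ)
  have hord : orderOf g = l - 1 := by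
    rw [orderOf_eq_card_of_forall_mem_zpowers hg, Nat.card_eq_fintype_card, ZMod.card_units_eq_totient,
      Nat.totient_prime Fact.out]
  have h1 : (evT (twist (g : ZMod l) Ψ)).coeff m = (evT Ψ).coeff m := by rw [hfix g]
  rw [coeff_evT_twist] at h1
  have h2 : (g : ZMod l) ^ m ≠ 1 := by
    intro h
    apply hm
    rw [← hord, orderOf_dvd_iff_pow_eq_one]
    apply Units.ext
    rw [Units.val_pow_eq_pow_val, h, Units.val_one]
  have h3 : C ((g : ZMod l) ^ m - 1) * (evT Ψ).coeff m = 0 := by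
    rw [map_sub, map_one, sub_mul, one_mul, h1, sub_self]
  rcases mul_eq_zero.1 h3 with h4 | h4
  · exfalso
    apply h2
    have := C_injective (Fin 2) (ZMod l) (h4.trans (map_zero C).symm)
    exact sub_eq_zero.1 this
  · exact h4

/-- **Lemma A.** A twist-invariant polynomial in the kernel of `evQ` is divisible by `Ã - 1`. -/
theorem pi_dvd_of_twist_fixed {Ψ : MvPolynomial (Fin 2) (ZMod l)}
    (hΨ : evQ (ZMod l) Ψ = 0) (hfix : ∀ u : (ZMod l)ˣ, twist (u : ZMod l) Ψ = Ψ) :
    H.pi ∣ Ψ := by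
  set N := (evT Ψ).natDegree with hN
  -- the homogenisation
  set Ψs : MvPolynomial (Fin 2) (ZMod l) :=
    ∑ m ∈ Finset.range (N + 1), (evT Ψ).coeff m * H.A ^ (N - m / (l - 1)) with hΨs
  have hpos := H.l_sub_one_pos
  have hiso : IsIso Ψs ((l - 1) * N) := by
    apply IsIso.sum
    intro m hm
    by_cases hd : (l - 1) ∣ m
    · obtain ⟨j, rfl⟩ := hd
      rw [Nat.mul_div_cancel_left _ hpos]
      have hj : j ≤ N := by
        have : (l - 1) * j < N + 1 := Finset.mem_range.1 hm
        have : j ≤ (l - 1) * j := Nat.le_mul_of_pos_left _ hpos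
        omega
      have h1 := (isIso_coeff_evT Ψ ((l - 1) * j)).mul (H.isIso.pow (N - j))
      refine h1.weight_cast ?_
      have : N = j + (N - j) := by omega
      conv_rhs => rw [this]
      ring
    · rw [coeff_evT_eq_zero_of_twist_fixed hfix m hd, zero_mul]
      exact isIso_zero _
  have hev : evQ (ZMod l) Ψs = 0 := by
    rw [hΨs, map_sum]
    simp only [map_mul, map_pow, H.evQ_eq, one_pow, mul_one]
    rw [← map_sum, sum_coeff_evT, hΨ]
  have hzero : Ψs = 0 := IsIso.eq_zero_of_evQ_eq_zero H.c1728_ne_zero _ hiso hev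
  have hdiff : Ψ = ∑ m ∈ Finset.range (N + 1),
      (evT Ψ).coeff m * (1 - H.A ^ (N - m / (l - 1))) := by
    have h1 : ∑ m ∈ Finset.range (N + 1), (evT Ψ).coeff m * (1 - H.A ^ (N - m / (l - 1))) =
        ∑ m ∈ Finset.range (N + 1), (evT Ψ).coeff m - Ψs := by
      rw [hΨs, ← Finset.sum_sub_distrib]
      apply Finset.sum_congr rfl
      intro m _
      ring
    rw [h1, hzero, sub_zero, sum_coeff_evT]
  rw [hdiff]
  apply Finset.dvd_sum
  intro m _
  apply Dvd.dvd.mul_left
  have := sub_dvd_pow_sub_pow H.A 1 (N - m / (l - 1))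
  rw [one_pow] at this
  rw [pi]
  exact (dvd_neg.2 this).trans (by rw [neg_sub])

end HasseData

/-! ### Twist invariants and integrality -/

section Invariants

variable (l : ℕ) [Fact l.Prime]

/-- The subalgebra of polynomials invariant under all twists by units of `ZMod l`. -/
def twistInv : Subalgebra (ZMod l) (MvPolynomial (Fin 2) (ZMod l)) where
  carrier := {Ψ | ∀ u : (ZMod l)ˣ, twist (u : ZMod l) Ψ = Ψ}
  mul_mem' := fun {a b} ha hb u => by rw [map_mul, ha u, hb u]
  add_mem' := fun {a b} ha hb u => by rw [map_add, ha u, hb u]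
  algebraMap_mem' := fun r u => by
    rw [MvPolynomial.algebraMap_eq, twist_C]

variable {l}

theorem mem_twistInv {Ψ : MvPolynomial (Fin 2) (ZMod l)} :
    Ψ ∈ twistInv l ↔ ∀ u : (ZMod l)ˣ, twist (u : ZMod l) Ψ = Ψ := Iff.rfl

theorem X_pow_mem_twistInv (i : Fin 2) :
    (X i : MvPolynomial (Fin 2) (ZMod l)) ^ (l - 1) ∈ twistInv l := by
  intro u
  rw [map_pow, twist_X, mul_pow, ← map_pow, ← pow_mul, mul_comm (wt i), pow_mul,
    ← Units.val_pow_eq_pow_val, ZMod.units_pow_card_sub_one_eq_one, Units.val_one, one_pow,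
    map_one, one_mul]

/-- Every polynomial is integral over the twist invariants. -/
theorem isIntegral_twistInv (hl : 1 < l) (Φ : MvPolynomial (Fin 2) (ZMod l)) :
    IsIntegral (twistInv l) Φ := by
  induction Φ using MvPolynomial.induction_on with
  | C a =>
    have : (C a : MvPolynomial (Fin 2) (ZMod l)) =
        algebraMap (twistInv l) _ ⟨C a, fun u => twist_C _ a⟩ := rfl
    rw [this]
    exact isIntegral_algebraMap
  | add p q hp hq => exact hp.add hq
  | mul_X p i hp =>
    refine hp.mul ?_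
    apply IsIntegral.of_pow (n := l - 1) (by omega)
    have : (X i : MvPolynomial (Fin 2) (ZMod l)) ^ (l - 1) =
        algebraMap (twistInv l) _ ⟨X i ^ (l - 1), X_pow_mem_twistInv i⟩ := rfl
    rw [this]
    exact isIntegral_algebraMap

end Invariants

namespace HasseData

variable {l : ℕ} [Fact l.Prime] (H : HasseData l)

/-- The kernel of `evQ` is generated by an irreducible factor of `Ã - 1`. -/
theorem exists_ker_eq_span :
    ∃ ϖ : MvPolynomial (Fin 2) (ZMod l), Irreducible ϖ ∧ ϖ ∣ H.pi ∧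
      RingHom.ker (evQ (ZMod l)) = Ideal.span {ϖ} := by
  have hprime : (RingHom.ker (evQ (ZMod l))).IsPrime := RingHom.ker_isPrime _
  have hmem : H.pi ∈ RingHom.ker (evQ (ZMod l)) := H.evQ_pi
  -- an irreducible factor of `π` in the kernel
  have h1 : (UniqueFactorizationMonoid.factors H.pi).prod ∈ RingHom.ker (evQ (ZMod l)) := by
    obtain ⟨u, hu⟩ := UniqueFactorizationMonoid.factors_prod H.pi_ne_zero
    rwa [← hu, Ideal.mul_unit_mem_iff_mem _ u.isUnit] at hmem
  obtain ⟨ϖ, hϖ1, hϖ2⟩ := (hprime.multiset_prod_mem_iff_exists_mem _).1 h1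
  have hirr : Irreducible ϖ := UniqueFactorizationMonoid.irreducible_of_factor ϖ hϖ1
  have hdvd : ϖ ∣ H.pi := UniqueFactorizationMonoid.dvd_of_mem_factors hϖ1
  refine ⟨ϖ, hirr, hdvd, ?_⟩
  have hle : Ideal.span {ϖ} ≤ RingHom.ker (evQ (ZMod l)) := by
    rw [Ideal.span_le, Set.singleton_subset_iff]
    exact hϖ2
  apply le_antisymm _ hle
  by_contra hnot
  obtain ⟨x, hx1, hx2⟩ := Set.not_subset.1 hnot
  have : (Ideal.span {ϖ}).IsPrime :=
    (Ideal.span_singleton_prime hirr.ne_zero).2 hirr.prime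
  have hl : 1 < l := (Fact.out : l.Prime).one_lt
  have hlt := Ideal.comap_lt_comap_of_integral_mem_sdiff (R := twistInv l) hle
    (x := x) ⟨hx1, hx2⟩ (isIntegral_twistInv hl x)
  obtain ⟨y, hy1, hy2⟩ := SetLike.exists_of_lt hlt
  apply hy2
  rw [Ideal.mem_comap, Ideal.mem_span_singleton]
  rw [Ideal.mem_comap] at hy1
  have := H.pi_dvd_of_twist_fixed hy1 y.2
  exact hdvd.trans this

include H in
/-- The kernel of `evQ` is stable under twists. -/
theorem twist_mem_ker (u : (ZMod l)ˣ) {x : MvPolynomial (Fin 2) (ZMod l)}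
    (hx : evQ (ZMod l) x = 0) : evQ (ZMod l) (twist (u : ZMod l) x) = 0 := by
  obtain ⟨ϖ, hirr, hdvd, hker⟩ := H.exists_ker_eq_span
  have hmem : ∀ y, evQ (ZMod l) y = 0 ↔ ϖ ∣ y := by
    intro y
    rw [← RingHom.mem_ker, hker, Ideal.mem_span_singleton]
  rw [hmem] at hx ⊢
  -- `ϖ` is associated to its twist
  have hirr' : Irreducible (twist (u : ZMod l) ϖ) := by
    have := (MulEquiv.irreducible_iff (twistEquiv u).toMulEquiv).2 hirr
    simpa using this
  have hdvd' : twist (u : ZMod l) ϖ ∣ H.pi := by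
    have := map_dvd (twist (u : ZMod l)) hdvd
    rwa [H.twist_pi] at this
  have hass : ϖ ∣ twist (u : ZMod l) ϖ := by
    by_contra hnd
    -- then `ϖ * twist u ϖ ∣ π`, and the top components give a square factor of `Ã`
    obtain ⟨ρ, hρ⟩ := hdvd'
    have h1 : ϖ ∣ ρ := by
      have h2 : ϖ ∣ twist (u : ZMod l) ϖ * ρ := hρ ▸ hdvd
      exact (hirr.prime.dvd_or_dvd h2).resolve_left hnd
    obtain ⟨ρ', rfl⟩ := h1
    have htop : top H.pi = H.A := by
      have hA0 := H.A_ne_zero
      have hd : wdeg H.A = l - 1 := H.isIso.wdeg_eq hA0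
      have hpos := H.l_sub_one_pos
      rw [top, Polynomial.leadingCoeff, pi, map_sub, map_one, Polynomial.natDegree_sub_eq_left_of_natDegree_lt,
        Polynomial.coeff_sub, Polynomial.coeff_one, ← wdeg, hd, if_neg (by omega), sub_zero]
      · have := H.isIso.evT_eq
        rw [this, Polynomial.coeff_C_mul, Polynomial.coeff_X_pow, if_pos rfl, mul_one]
      · rw [Polynomial.natDegree_one, ← wdeg, hd]
        exact hpos
    have h3 := congrArg top hρ
    rw [htop, top_mul, top_mul, top_twist] at h3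
    have hsq : top ϖ * top ϖ ∣ H.A := by
      rw [h3]
      refine ⟨C ((u : ZMod l) ^ wdeg ϖ) * top ρ', ?_⟩
      ring
    have hu := H.squarefree_A (top ϖ) hsq
    -- `top ϖ` is a unit, so `ϖ` has weighted degree `0`, so `ϖ` is a constant: contradiction
    have hiso := isIso_top ϖ
    obtain ⟨c, hc⟩ : ∃ c : ZMod l, top ϖ = C c := by
      obtain ⟨c, hc0, hc⟩ := (MvPolynomial.isUnit_iff_eq_C_of_isReduced (P := top ϖ)).1 hu
      exact ⟨c, hc⟩
    have hne : top ϖ ≠ 0 := top_eq_zero_iff.not.2 hirr.ne_zero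
    have hw : wdeg ϖ = 0 := by
      have := hiso.weight_unique hne (hc ▸ isIso_C c)
      exact this
    obtain ⟨a, ha⟩ := wdeg_eq_zero_iff.1 hw
    have ha0 : a ≠ 0 := by
      rintro rfl
      exact hirr.ne_zero (by simpa using ha)
    apply hirr.not_isUnit
    rw [ha]
    exact (isUnit_iff_ne_zero.2 ha0).map C
  obtain ⟨y, rfl⟩ := hx
  rw [map_mul]
  exact Dvd.dvd.mul_right hass _

include H in
/-- **Swinnerton-Dyer, algebraic core.** An isobaric polynomial over `ZMod l` whose q-expansion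
is a nonzero constant has weight divisible by `l - 1`. -/
theorem weight_dvd {Φ : MvPolynomial (Fin 2) (ZMod l)} {k : ℕ} (hΦ : IsIso Φ k) {c : ZMod l}
    (hc : c ≠ 0) (hev : evQ (ZMod l) Φ = PowerSeries.C c) : (l - 1) ∣ k := by
  have hx : evQ (ZMod l) (Φ - C c) = 0 := by
    rw [map_sub, hev, evQ_C, sub_self]
  have hpow : ∀ u : (ZMod l)ˣ, u ^ k = 1 := by
    intro u
    have h1 := H.twist_mem_ker u hx
    rw [map_sub, twist_C, hΦ.twist_eq, map_sub, map_mul, evQ_C, evQ_C, hev, ← map_mul,
      ← map_sub] at h1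
    have h2 : (u : ZMod l) ^ k * c - c = 0 := by
      have := congrArg PowerSeries.constantCoeff h1
      simpa using this
    have h3 : ((u : ZMod l) ^ k - 1) * c = 0 := by
      rw [sub_mul, one_mul]
      exact h2
    have h4 : (u : ZMod l) ^ k = 1 := sub_eq_zero.1 ((mul_eq_zero.1 h3).resolve_right hc)
    apply Units.ext
    rw [Units.val_pow_eq_pow_val, h4, Units.val_one]
  obtain ⟨g, hg⟩ := IsCyclic.exists_generator (α := (ZMod l)ˣ)
  have hord : orderOf g = l - 1 := by
    rw [orderOf_eq_card_of_forall_mem_zpowers hg, Nat.card_eq_fintype_card, ZMod.card_units_eq_totient,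
      Nat.totient_prime Fact.out]
  rw [← hord, orderOf_dvd_iff_pow_eq_one]
  exact hpow g

end HasseData

end

end Fermat.Agent.S16.SD
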