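import Mathlib
import Fermat.Agent.S16.SD.Kernel
import Fermat.Agent.S16.SD.Descent
import Fermat.Agent.S16.SD.Hasse

set_option autoImplicit false

/-!
# Swinnerton-Dyer's theorem on weights modulo `l`, conditional on Ramanujan's identities

Part of the Swinnerton-Dyer package (WP-SD of P-S16).  `weight_dvd_of_congr_const_of_ramanujan`:
a level-one modular form of weight `k` with `l`-integral rational q-expansion which is congruent
modulo `l` to a nonzero constant has weight divisible by `l - 1` (`l ≥ 5`).  The hypothesis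
`RamanujanZ` is discharged in `Main.lean`.
-/

namespace Fermat.Agent.S16.SD

open MvPolynomial UpperHalfPlane ModularForm
open scoped MatrixGroups

noncomputable section

variable {l : ℕ} [Fact l.Prime]

theorem ratCast_zmod_eq_zero {x : ℚ} (h : (l : ℤ) ∣ x.num) : ((x : ℚ) : ZMod l) = 0 := by
  rw [Rat.cast_def, (ZMod.intCast_zmod_eq_zero_iff_dvd x.num l).2 h, zero_div]

theorem ratCast_zmod_ne_zero {x : ℚ} (h : ¬ (l : ℤ) ∣ x.num) (hd : ¬ l ∣ x.den) :
    ((x : ℚ) : ZMod l) ≠ 0 := by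
  rw [Rat.cast_def]
  apply div_ne_zero
  · rw [Ne, ZMod.intCast_zmod_eq_zero_iff_dvd]
    exact h
  · rw [Ne, ZMod.natCast_eq_zero_iff]
    exact hd

/-- The Hasse polynomial exists (reduction of `E_{l-1}`). -/
theorem nonempty_hasseData (hR : RamanujanZ) (hl : 5 ≤ l) : Nonempty (HasseData l) := by
  obtain ⟨rA, hrA, hrA0, hrAint, hrApos⟩ := hasse_qExpansion l hl
  obtain ⟨At, hAt, hAtc⟩ := exists_reduction hl (k := l - 1)
    (ModularForm.E (k := l - 1) (by omega)) rA hrA hrAint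
  refine ⟨⟨hl, hR, At, hAt, ?_⟩⟩
  ext n
  rw [hAtc, PowerSeries.coeff_one]
  split_ifs with hn
  · subst hn
    rw [hrA0, Rat.cast_one]
  · exact ratCast_zmod_eq_zero (hrApos n (Nat.one_le_iff_ne_zero.2 hn))

/-- **Swinnerton-Dyer** (conditional on Ramanujan's identities over `ℤ`). -/
theorem weight_dvd_of_congr_const_of_ramanujan (hR : RamanujanZ) (hl : 5 ≤ l) {k : ℕ}
    (f : ModularForm 𝒮ℒ (k : ℤ)) (r : ℕ → ℚ)
    (hr : ∀ n, (qExpansion 1 f).coeff n = (r n : ℂ)) (hint : ∀ n, ¬ l ∣ (r n).den)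
    (hpos : ∀ n, 1 ≤ n → (l : ℤ) ∣ (r n).num) (h0 : ¬ (l : ℤ) ∣ (r 0).num) :
    (l - 1) ∣ k := by
  obtain ⟨H⟩ := nonempty_hasseData hR hl
  obtain ⟨Ψ, hΨ, hΨc⟩ := exists_reduction hl f r hr hint
  apply H.weight_dvd hΨ (ratCast_zmod_ne_zero h0 (hint 0))
  ext n
  rw [hΨc, PowerSeries.coeff_C]
  split_ifs with hn
  · subst hn
    rfl
  · exact ratCast_zmod_eq_zero (hpos n (Nat.one_le_iff_ne_zero.2 hn))

end

end Fermat.Agent.S16.SD
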