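import Mathlib
import Fermat.Agent.S16.SD.MainCond
import Fermat.Agent.S16.SD.Ramanujan

set_option autoImplicit false

/-!
# Swinnerton-Dyer's theorem on weights modulo `l` (level one)

WP-SD of P-S16: a level-one modular form of weight `k` with `l`-integral rational q-expansion
which is congruent modulo `l` to a nonzero constant has weight divisible by `l - 1`, for every
prime `l ≥ 5`.
-/

namespace Fermat.Agent.S16.SD

open UpperHalfPlane ModularForm
open scoped MatrixGroups

/-- **Swinnerton-Dyer.** Let `l ≥ 5` be a prime and `f` a level-one modular form of weight `k`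
whose q-expansion coefficients are rational numbers `r n` with denominators prime to `l`.  If
`l` divides the numerators of `r n` for all `n ≥ 1` but not the numerator of `r 0`, then
`l - 1` divides `k`. -/
theorem weight_dvd_of_congr_const {l : ℕ} [Fact l.Prime] (hl : 5 ≤ l) {k : ℕ}
    (f : ModularForm 𝒮ℒ (k : ℤ)) (r : ℕ → ℚ)
    (hr : ∀ n, (qExpansion 1 f).coeff n = (r n : ℂ)) (hint : ∀ n, ¬ l ∣ (r n).den)
    (hpos : ∀ n, 1 ≤ n → (l : ℤ) ∣ (r n).num) (h0 : ¬ (l : ℤ) ∣ (r 0).num) :
    (l - 1) ∣ k :=
  weight_dvd_of_congr_const_of_ramanujan ramanujanZ hl f r hr hint hpos h0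

end Fermat.Agent.S16.SD
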